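import Fermat.Agent.Newforms.Basic
import Fermat.Agent.HeckeDuality.EigenConverse
import Fermat.Agent.IntegralStructure.Duality

/-!
# Eigenforms, Hecke eigenvectors and degeneracy maps (weight two)
-/

set_option autoImplicit false

noncomputable section

open CongruenceSubgroup ModularFormClass
open Fermat.Agent.HeckeDuality (heckeOp eulerWeight coeff_heckeOp)

namespace Fermat.Agent.Newforms

/-- `T_ℓ` or `U_ℓ` as an endomorphism. -/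
abbrev hOp (N : ℕ) [NeZero N] {ℓ : ℕ} (hℓ : ℓ.Prime) :
    Module.End ℂ (CuspForm (Gamma0 N) 2) :=
  (heckeOp N 2 ℓ hℓ : Module.End ℂ (CuspForm (Gamma0 N) 2))

variable {N : ℕ} [NeZero N]

lemma hOp_eq_heckeTLin {ℓ : ℕ} (hℓ : ℓ.Prime) (h : ¬ ℓ ∣ N) :
    hOp N hℓ = CuspForm.heckeTLin 2 hℓ h := by
  simp [hOp, heckeOp, h]

lemma hOp_eq_heckeULin {ℓ : ℕ} (hℓ : ℓ.Prime) (h : ℓ ∣ N) :
    hOp N hℓ = CuspForm.heckeULin 2 h := by
  simp [hOp, heckeOp, h]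

lemma hOp_commute {ℓ m : ℕ} (hℓ : ℓ.Prime) (hm : m.Prime) : Commute (hOp N hℓ) (hOp N hm) := by
  show (heckeOp N 2 ℓ hℓ).1 * (heckeOp N 2 m hm).1 = (heckeOp N 2 m hm).1 * (heckeOp N 2 ℓ hℓ).1
  rw [← Subalgebra.coe_mul, ← Subalgebra.coe_mul, mul_comm]

lemma hOp_eq_smul_iff {ℓ : ℕ} (hℓ : ℓ.Prime) (f : CuspForm (Gamma0 N) 2) (c : ℂ) :
    hOp N hℓ f = c • f ↔ ∀ n, qCoeff f (n * ℓ) +
      (if ℓ ∣ n then eulerWeight N ℓ * qCoeff f (n / ℓ) else 0) = c * qCoeff f n := by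
  constructor
  · intro h n
    rw [← coeff_heckeOp hℓ f n, ← qCoeff_smul, ← h]
  · intro h
    exact eq_of_forall_qCoeff fun n => by rw [coeff_heckeOp hℓ f n, h n, qCoeff_smul]

/-- A normalised eigenform is an eigenvector of every `T_ℓ`, `U_q`. -/
theorem hOp_of_isNormalizedEigenform {f : CuspForm (Gamma0 N) 2} (hf : f.IsNormalizedEigenform)
    {ℓ : ℕ} (hℓ : ℓ.Prime) : hOp N hℓ f = qCoeff f ℓ • f :=
  HeckeDuality.heckeOp_apply_of_isNormalizedEigenform hf hℓ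

/-- Hecke operators prime to `d` commute with `levelRaise d`. -/
theorem hOp_levelRaise {M d ℓ : ℕ} [NeZero M] (hℓ : ℓ.Prime) (h : d * M ∣ N) (hℓd : ¬ ℓ ∣ d)
    (hℓN : ℓ ∣ N ↔ ℓ ∣ M) (f : CuspForm (Gamma0 M) 2) :
    hOp N hℓ (levelRaise d h f) = levelRaise d h (hOp M hℓ f) := by
  refine eq_of_forall_qCoeff fun n => ?_
  have he : eulerWeight N ℓ = eulerWeight M ℓ := by simp [eulerWeight, hℓN]
  have hcop : Nat.Coprime d ℓ := (hℓ.coprime_iff_not_dvd.2 hℓd).symm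
  rw [coeff_heckeOp, qCoeff_levelRaise, qCoeff_levelRaise, qCoeff_levelRaise, coeff_heckeOp, he]
  by_cases hd : d ∣ n
  · obtain ⟨m, rfl⟩ := hd
    have hd0 : 0 < d := Nat.pos_of_ne_zero fun hd0 => hℓd (hd0 ▸ dvd_zero ℓ)
    rw [if_pos (dvd_mul_of_dvd_left (dvd_mul_right d m) ℓ), if_pos (dvd_mul_right d m),
      mul_assoc d m ℓ, Nat.mul_div_cancel_left _ hd0, Nat.mul_div_cancel_left _ hd0]
    congr 1
    by_cases hm : ℓ ∣ m
    · obtain ⟨e, rfl⟩ := hm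
      rw [if_pos (dvd_mul_of_dvd_right (dvd_mul_right ℓ e) d), if_pos (dvd_mul_right ℓ e),
        show d * (ℓ * e) / ℓ = d * e by
          rw [mul_left_comm, Nat.mul_div_cancel_left _ hℓ.pos],
        if_pos (dvd_mul_right d e), Nat.mul_div_cancel_left _ hd0,
        Nat.mul_div_cancel_left _ hℓ.pos]
    · rw [if_neg hm, if_neg fun hc => hm (((Nat.Coprime.dvd_mul_left hcop.symm).1 hc))]
  · rw [if_neg fun hc => hd (hcop.dvd_of_dvd_mul_right hc), if_neg hd, zero_add, ite_eq_right_iff]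
    intro hn
    rw [if_neg fun hc => hd (hc.trans (Nat.div_dvd_of_dvd hn)), mul_zero]

lemma hOp_levelIncl {M ℓ : ℕ} [NeZero M] (hℓ : ℓ.Prime) (h : M ∣ N)
    (hℓN : ℓ ∣ N ↔ ℓ ∣ M) (f : CuspForm (Gamma0 M) 2) :
    hOp N hℓ (levelIncl h f) = levelIncl h (hOp M hℓ f) :=
  hOp_levelRaise hℓ _ hℓ.not_dvd_one hℓN f

/-- A common eigenvector of the `T_ℓ`, `U_ℓ`, `ℓ ∈ P`, gives a normalised eigenform with the
same eigenvalues on `P`. -/
theorem exists_eigenform_of_eigen {f : CuspForm (Gamma0 N) 2} (hf : f ≠ 0) (P : ℕ → Prop)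
    (lam : ℕ → ℂ) (hlam : ∀ ℓ (hℓ : ℓ.Prime), P ℓ → hOp N hℓ f = lam ℓ • f) :
    ∃ g : CuspForm (Gamma0 N) 2, g.IsNormalizedEigenform ∧
      ∀ ℓ, ℓ.Prime → P ℓ → qCoeff g ℓ = lam ℓ := by
  classical
  have := IntegralStructure.finiteDimensional_cuspForm N
  let ρ : ↥(CuspForm.heckeAlgebra N 2 ∅) →+* Module.End ℂ (CuspForm (Gamma0 N) 2) :=
    (CuspForm.heckeAlgebra N 2 ∅).val.toRingHom
  let W : Submodule ℂ (CuspForm (Gamma0 N) 2) :=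
    ⨅ i : {ℓ : ℕ // ℓ.Prime ∧ P ℓ}, LinearMap.ker (hOp N i.2.1 - lam i.1 • 1)
  have hWmem : ∀ v, v ∈ W ↔ ∀ ℓ (hℓ : ℓ.Prime), P ℓ → hOp N hℓ v = lam ℓ • v := fun v => by
    simp [W, Submodule.mem_iInf, sub_eq_zero, Subtype.forall]
  have hW : W ≠ ⊥ := (Submodule.ne_bot_iff _).2 ⟨f, (hWmem f).2 hlam, hf⟩
  obtain ⟨θ, v, hvW, hv, heig⟩ := HeckeDuality.exists_eigenCharacter ρ W hW fun a w hw => by
    rw [hWmem] at hw ⊢
    intro ℓ hℓ hP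
    show (heckeOp N 2 ℓ hℓ).1 (a.1 w) = lam ℓ • a.1 w
    rw [← Module.End.mul_apply, ← Subalgebra.coe_mul, mul_comm, Subalgebra.coe_mul,
      Module.End.mul_apply]
    exact (congrArg a.1 (hw ℓ hℓ hP)).trans (map_smul _ _ _)
  obtain ⟨-, hnorm, hcoeff⟩ := HeckeDuality.isNormalizedEigenform_of_eigen hv
    (fun ℓ => if hℓ : ℓ.Prime then θ (heckeOp N 2 ℓ hℓ) else 0) fun ℓ hℓ => by
      simp only [dif_pos hℓ]
      exact heig (heckeOp N 2 ℓ hℓ)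
  refine ⟨_, hnorm, fun ℓ hℓ hP => ?_⟩
  rw [hcoeff ℓ hℓ, dif_pos hℓ]
  refine smul_left_injective ℂ hv ?_
  show θ (heckeOp N 2 ℓ hℓ) • v = lam ℓ • v
  rw [← heig]
  exact (hWmem v).1 hvW ℓ hℓ hP

end Fermat.Agent.Newforms
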