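import Fermat.Agent.Newforms.HeckeCosets

/-!
# Atkin–Lehner matrices, the trace to level `M / q`
-/

set_option autoImplicit false

noncomputable section

open CongruenceSubgroup Matrix.SpecialLinearGroup UpperHalfPlane
open scoped MatrixGroups ModularForm

namespace Fermat.Agent.Newforms

open P2MW.S_ModularForm_heckeT_slash_eq_self_of_mem_Gamma0.ModularForm.HeckeSlashInvariance

/-- The data of an Atkin–Lehner matrix `[[q x, y], [q R z, q v]]` at level `q R`. -/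
structure ALData (q R : ℕ) where
  hq : q ≠ 0
  x : ℤ
  y : ℤ
  z : ℤ
  v : ℤ
  eq_one : (q : ℤ) * x * v - (R : ℤ) * z * y = 1

namespace ALData

variable {q R : ℕ} (D : ALData q R)

/-- The integral matrix. -/
def intMat : Matrix (Fin 2) (Fin 2) ℤ :=
  !![(q : ℤ) * D.x, D.y; (q : ℤ) * R * D.z, (q : ℤ) * D.v]

/-- The adjugate, again an Atkin–Lehner matrix. -/
def adj : ALData q R where
  hq := D.hq
  x := D.v
  y := -D.y
  z := -D.z
  v := D.x
  eq_one := by linear_combination D.eq_one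

lemma det_intMat : D.intMat.det = q := by
  rw [intMat, Matrix.det_fin_two_of]
  linear_combination (q : ℤ) * D.eq_one

/-- The real matrix. -/
def gl : GL (Fin 2) ℝ :=
  Matrix.GeneralLinearGroup.mkOfDetNeZero (realMat D.intMat) (by
    rw [show realMat D.intMat = (Int.castRingHom ℝ).mapMatrix D.intMat from rfl,
      ← RingHom.map_det, det_intMat]
    simpa using D.hq)

lemma val_gl : (D.gl : Matrix (Fin 2) (Fin 2) ℝ) = realMat D.intMat := rfl

lemma det_gl_pos : 0 < D.gl.det.val := by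
  rw [Matrix.GeneralLinearGroup.val_det_apply, val_gl,
    show realMat D.intMat = (Int.castRingHom ℝ).mapMatrix D.intMat from rfl, ← RingHom.map_det,
    det_intMat]
  simpa using Nat.pos_of_ne_zero D.hq

lemma σ_gl : UpperHalfPlane.σ D.gl = .refl ℝ ℂ := by
  rw [UpperHalfPlane.σ, if_pos D.det_gl_pos]

lemma gl_eq_ratGL : ∃ g : GL (Fin 2) ℚ, D.gl = ratGL g := by
  refine ⟨Matrix.GeneralLinearGroup.mkOfDetNeZero (D.intMat.map (Int.castRingHom ℚ)) ?_, ?_⟩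
  · rw [show D.intMat.map (Int.castRingHom ℚ) = (Int.castRingHom ℚ).mapMatrix D.intMat from rfl,
      ← RingHom.map_det, det_intMat]
    simpa using D.hq
  · ext i j
    simp [val_gl, realMat, Matrix.GeneralLinearGroup.mkOfDetNeZero]

lemma exists_conj (A : Matrix (Fin 2) (Fin 2) ℤ) (hc : ((q * R : ℕ) : ℤ) ∣ A 1 0) :
    ∃ A' : Matrix (Fin 2) (Fin 2) ℤ, ((q * R : ℕ) : ℤ) ∣ A' 1 0 ∧ A'.det = A.det ∧
      D.intMat * A = A' * D.intMat := by
  obtain ⟨c, hc⟩ := hc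
  push_cast at hc
  let x := D.x; let y := D.y; let z := D.z; let v := D.v
  let a := A 0 0; let b := A 0 1; let d := A 1 1
  let A' : Matrix (Fin 2) (Fin 2) ℤ :=
    !![((q : ℤ) * x * a + y * (q * R * c)) * v - ((q : ℤ) * x * b + y * d) * R * z,
      -(x * a + y * R * c) * y + ((q : ℤ) * x * b + y * d) * x;
      (q : ℤ) * R * ((z * a + q * v * c) * v - (R * z * b + v * d) * z),
      -((R : ℤ) * z * a + v * (q * R * c)) * y + ((q : ℤ) * R * z * b + q * v * d) * x]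
  have h : D.intMat * A = A' * D.intMat := by
    ext i j
    fin_cases i <;> fin_cases j <;>
      simp [intMat, A', x, y, z, v, a, b, d, Matrix.mul_apply, Fin.sum_univ_two, hc]
    · linear_combination (-((q : ℤ) * D.x * A 0 0 + D.y * (q * R * c))) * D.eq_one
    · linear_combination (-((q : ℤ) * D.x * A 0 1 + D.y * A 1 1)) * D.eq_one
    · linear_combination (-((q : ℤ) * R * (D.z * A 0 0 + q * D.v * c))) * D.eq_one
    · linear_combination (-((q : ℤ) * R * D.z * A 0 1 + q * D.v * A 1 1)) * D.eq_one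
  refine ⟨A', ?_, ?_, h⟩
  · refine ⟨(z * a + q * v * c) * v - (R * z * b + v * d) * z, ?_⟩
    push_cast
    rfl
  · have hd := congrArg Matrix.det h
    rw [Matrix.det_mul, Matrix.det_mul, mul_comm A'.det] at hd
    exact (mul_left_cancel₀ (by rw [det_intMat]; exact_mod_cast D.hq) hd).symm

lemma exists_conj_real (A : Matrix (Fin 2) (Fin 2) ℤ) (hc : ((q * R : ℕ) : ℤ) ∣ A 1 0) :
    ∃ A' : Matrix (Fin 2) (Fin 2) ℤ, ((q * R : ℕ) : ℤ) ∣ A' 1 0 ∧ A'.det = A.det ∧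
      (D.gl : Matrix (Fin 2) (Fin 2) ℝ) * realMat A = realMat A' * D.gl := by
  obtain ⟨A', h1, h2, h3⟩ := D.exists_conj A hc
  refine ⟨A', h1, h2, ?_⟩
  rw [val_gl, ← Matrix.map_mul, ← Matrix.map_mul, h3]

lemma adj_gl_mul : (D.adj.gl : Matrix (Fin 2) (Fin 2) ℝ) * D.gl = (q : ℝ) • 1 := by
  rw [val_gl, val_gl, ← Matrix.map_mul]
  have : D.adj.intMat * D.intMat = (q : ℤ) • 1 := by
    ext i j
    fin_cases i <;> fin_cases j <;>
      simp [intMat, adj, Matrix.mul_apply, Fin.sum_univ_two]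
    · linear_combination (q : ℤ) * D.eq_one
    · ring
    · ring
    · linear_combination (q : ℤ) * D.eq_one
  rw [this]
  ext i j
  fin_cases i <;> fin_cases j <;> simp [← Matrix.diagonal_natCast]

lemma exists_gamma0_conj {γ : SL(2, ℤ)} (hγ : γ ∈ Gamma0 (q * R)) :
    ∃ γ' ∈ Gamma0 (q * R), D.gl * mapGL ℝ γ = mapGL ℝ γ' * D.gl := by
  obtain ⟨A', h1, h2, h3⟩ := D.exists_conj_real (γ : Matrix (Fin 2) (Fin 2) ℤ)
    (mem_gamma0_iff_dvd.1 hγ)
  refine ⟨⟨A', h2.trans γ.det_coe⟩, mem_gamma0_iff_dvd.2 h1, Units.ext ?_⟩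
  rw [Units.val_mul, Units.val_mul, mapGL_eq_realMat, mapGL_eq_realMat]
  exact h3

lemma exists_gamma0_conj' {γ : SL(2, ℤ)} (hγ : γ ∈ Gamma0 (q * R)) :
    ∃ γ' ∈ Gamma0 (q * R), mapGL ℝ γ * D.gl = D.gl * mapGL ℝ γ' := by
  obtain ⟨γ', h1, h2⟩ := D.adj.exists_gamma0_conj hγ
  refine ⟨γ', h1, Units.ext ?_⟩
  have e := congrArg
    (fun u : GL (Fin 2) ℝ => (D.gl : Matrix (Fin 2) (Fin 2) ℝ) * (u : Matrix (Fin 2) (Fin 2) ℝ) * D.gl)
    h2
  have e1 : (D.gl : Matrix (Fin 2) (Fin 2) ℝ) * D.adj.gl = (q : ℝ) • 1 := by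
    have := D.adj.adj_gl_mul
    simpa [adj] using this
  simp only [Units.val_mul] at e ⊢
  rw [← mul_assoc (D.gl : Matrix (Fin 2) (Fin 2) ℝ), e1] at e
  rw [mul_assoc (D.gl : Matrix (Fin 2) (Fin 2) ℝ), mul_assoc
    ((mapGL ℝ γ' : GL (Fin 2) ℝ) : Matrix (Fin 2) (Fin 2) ℝ), D.adj_gl_mul] at e
  simp only [Matrix.smul_mul, one_mul, Matrix.mul_smul, mul_one] at e
  exact smul_right_injective _ (Nat.cast_ne_zero.2 D.hq) e

/-- `W ^ 2` is `q` times an element of `Γ₀(qR)`. -/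
lemma exists_sq : ∃ γ ∈ Gamma0 (q * R),
    (D.gl : Matrix (Fin 2) (Fin 2) ℝ) * D.gl = (q : ℝ) • (realMat (γ : Matrix (Fin 2) (Fin 2) ℤ)) := by
  refine ⟨⟨!![(q : ℤ) * D.x ^ 2 + D.y * R * D.z, D.y * (D.x + D.v);
      (q : ℤ) * R * (D.z * (D.x + D.v)), R * D.z * D.y + q * D.v ^ 2], ?_⟩, ?_, ?_⟩
  · rw [Matrix.det_fin_two_of]
    linear_combination ((q : ℤ) * D.x * D.v - R * D.z * D.y + 1) * D.eq_one
  · rw [mem_gamma0_iff_dvd]
    push_cast
    exact dvd_mul_right _ _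
  · rw [val_gl, ← Matrix.map_mul]
    ext i j
    fin_cases i <;> fin_cases j <;>
      simp [intMat, realMat] <;> ring

variable {f : ℍ → ℂ}

/-- In weight two scalar matrices act trivially. -/
lemma slash_two_of_smul {g g' : GL (Fin 2) ℝ} {c : ℝ} (hc : 0 < c)
    (h : (g : Matrix (Fin 2) (Fin 2) ℝ) = c • (g' : Matrix (Fin 2) (Fin 2) ℝ)) (f : ℍ → ℂ) :
    f ∣[(2 : ℤ)] g = f ∣[(2 : ℤ)] g' := by
  have hg : g = Matrix.GeneralLinearGroup.scalar (Fin 2) (Units.mk0 c hc.ne') * g' :=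
    Units.ext (by simp [h, Matrix.scalar_apply, ← Matrix.smul_eq_diagonal_mul])
  rw [hg, SlashAction.slash_mul]
  congr 1
  ext τ
  have hcC : (c : ℂ) ≠ 0 := by exact_mod_cast hc.ne'
  simp [ModularForm.slash_apply, UpperHalfPlane.σ, hc, zpow_neg, abs_of_pos]
  field_simp

lemma slash_gl_gl (hf : ∀ γ ∈ Gamma0 (q * R), f ∣[(2 : ℤ)] γ = f) :
    (f ∣[(2 : ℤ)] D.gl) ∣[(2 : ℤ)] D.gl = f := by
  obtain ⟨γ, hγ, h⟩ := D.exists_sq
  rw [← SlashAction.slash_mul]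
  refine (slash_two_of_smul (g' := (mapGL ℝ γ : GL (Fin 2) ℝ))
    (Nat.cast_pos.2 (Nat.pos_of_ne_zero D.hq)) ?_ f).trans (hf γ hγ)
  rw [Units.val_mul, mapGL_eq_realMat, h]

lemma slash_gl_inv (hf : ∀ γ ∈ Gamma0 (q * R), f ∣[(2 : ℤ)] γ = f) {γ : SL(2, ℤ)}
    (hγ : γ ∈ Gamma0 (q * R)) : (f ∣[(2 : ℤ)] D.gl) ∣[(2 : ℤ)] γ = f ∣[(2 : ℤ)] D.gl := by
  obtain ⟨γ', hγ', h⟩ := D.exists_gamma0_conj hγ
  rw [ModularForm.SL_slash, ← SlashAction.slash_mul]
  show f ∣[(2 : ℤ)] (D.gl * mapGL ℝ γ) = _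
  rw [h, SlashAction.slash_mul]
  congr 1
  exact hf γ' hγ'

lemma heckeT_slash_gl {ℓ : ℕ} [Fact ℓ.Prime] (hℓ : ¬ ℓ ∣ q * R) (k : ℤ)
    (hf : ∀ γ ∈ Gamma0 (q * R), f ∣[k] γ = f) :
    ModularForm.heckeT k ℓ (f ∣[k] D.gl) = ModularForm.heckeT k ℓ f ∣[k] D.gl :=
  heckeT_slash_comm hℓ k f hf D.gl (fun A hA => D.exists_conj_real A hA)
    fun _ hγ => D.exists_gamma0_conj' hγ

/-- The coset representative `W [[1, j], [0, q]] / q ∈ Γ₀(R)`. -/
def delta (j : ℕ) : SL(2, ℤ) :=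
  ⟨!![D.x, D.x * j + D.y; (R : ℤ) * D.z, R * D.z * j + q * D.v], by
    rw [Matrix.det_fin_two_of]; linear_combination D.eq_one⟩

lemma delta_mem (j : ℕ) : D.delta j ∈ Gamma0 R :=
  mem_gamma0_iff_dvd.2 (dvd_mul_right _ _)

lemma slash_gl_heckeMatrix (j : ℕ) (f : ℍ → ℂ) :
    (f ∣[(2 : ℤ)] D.gl) ∣[(2 : ℤ)] ModularForm.heckeMatrix q j = f ∣[(2 : ℤ)] D.delta j := by
  rw [← SlashAction.slash_mul]
  refine slash_two_of_smul (g' := (mapGL ℝ (D.delta j) : GL (Fin 2) ℝ))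
    (Nat.cast_pos.2 (Nat.pos_of_ne_zero D.hq)) ?_ f
  rw [Units.val_mul, val_gl, ModularForm.val_heckeMatrix D.hq, mapGL_eq_realMat]
  ext a b
  fin_cases a <;> fin_cases b <;>
    simp [intMat, delta, realMat, Matrix.mul_apply, Fin.sum_univ_two] <;> ring

/-- The representatives used by the trace. -/
def traceRep (i : Option (ZMod q)) : SL(2, ℤ) := i.elim 1 fun j => D.delta j.val

theorem traceRep_unique (hq : q.Prime) (hqR : ¬ q ∣ R) {γ : SL(2, ℤ)} (hγ : γ ∈ Gamma0 R) :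
    ∃! i, γ * (D.traceRep i)⁻¹ ∈ Gamma0 (q * R) := by
  have : Fact q.Prime := ⟨hq⟩
  obtain ⟨c, hc⟩ := mem_gamma0_iff_dvd.1 hγ
  have hR : (R : ZMod q) ≠ 0 := fun h => hqR ((ZMod.natCast_eq_zero_iff _ _).1 h)
  have hyz : (R : ZMod q) * (D.z : ZMod q) * (D.y : ZMod q) = -1 := by
    have := congrArg (Int.cast : ℤ → ZMod q) D.eq_one
    push_cast at this
    rw [ZMod.natCast_self] at this
    linear_combination -this
  have hz : (D.z : ZMod q) ≠ 0 := fun h => by simp [h] at hyz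
  have hcop : IsCoprime (R : ℤ) (q : ℤ) :=
    (Nat.isCoprime_iff_coprime.2 ((hq.coprime_iff_not_dvd).2 hqR)).symm
  have hmem : ∀ δ' : SL(2, ℤ), δ' ∈ Gamma0 R →
      (γ * δ'⁻¹ ∈ Gamma0 (q * R) ↔ ((γ * δ'⁻¹) 1 0 : ZMod q) = 0) := fun δ' hδ' => by
    rw [mem_gamma0_iff_dvd, ZMod.intCast_zmod_eq_zero_iff_dvd, Nat.cast_mul]
    refine ⟨fun h => (dvd_mul_right _ _).trans h, fun h => hcop.symm.mul_dvd h ?_⟩
    exact mem_gamma0_iff_dvd.1 (mul_mem hγ (inv_mem hδ'))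
  have hnone : γ * (D.traceRep none)⁻¹ ∈ Gamma0 (q * R) ↔ (c : ZMod q) = 0 := by
    rw [show D.traceRep none = 1 from rfl, hmem _ (one_mem _)]
    simp [hc, hR]
  have hsome : ∀ j : ZMod q, γ * (D.traceRep (some j))⁻¹ ∈ Gamma0 (q * R) ↔
      (c : ZMod q) * R * j = ((γ 1 1 : ℤ) : ZMod q) := fun j => by
    rw [show D.traceRep (some j) = D.delta j.val from rfl, hmem _ (D.delta_mem _)]
    have : ((γ * (D.delta j.val)⁻¹) 1 0 : ZMod q) =
        (R : ZMod q) * D.z * ((c : ZMod q) * R * j - ((γ 1 1 : ℤ) : ZMod q)) := by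
      rw [Matrix.SpecialLinearGroup.coe_mul, Matrix.mul_apply, Fin.sum_univ_two, SL2_inv_expl]
      simp [ALData.delta, hc]
      ring
    rw [this, mul_eq_zero, or_iff_right (mul_ne_zero hR hz), sub_eq_zero]
  by_cases hc0 : (c : ZMod q) = 0
  · refine ⟨none, hnone.2 hc0, ?_⟩
    rintro (_ | j) hj
    · rfl
    · exfalso
      have h1 := (hsome j).1 hj
      rw [hc0, zero_mul, zero_mul] at h1
      have hdet := Matrix.det_fin_two (γ : Matrix (Fin 2) (Fin 2) ℤ)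
      rw [γ.det_coe, hc] at hdet
      have := congrArg (Int.cast : ℤ → ZMod q) hdet
      push_cast at this
      rw [hc0, ← h1] at this
      simp at this
  · refine ⟨some (((γ 1 1 : ℤ) : ZMod q) / ((c : ZMod q) * R)), (hsome _).2 ?_, ?_⟩
    · field_simp
    · rintro (_ | j) hj
      · exact absurd (hnone.1 hj) hc0
      · congr 1
        rw [eq_div_iff (mul_ne_zero hc0 hR)]
        linear_combination (hsome j).1 hj

theorem traceRep_mem (i : Option (ZMod q)) : D.traceRep i ∈ Gamma0 R := by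
  rcases i with _ | j
  · exact one_mem _
  · exact D.delta_mem _

theorem add_heckeU_eq_sum [NeZero q] (f : ℍ → ℂ) :
    f + ModularForm.heckeU 2 q (f ∣[(2 : ℤ)] D.gl) =
      ∑ i, f ∣[(2 : ℤ)] D.traceRep i := by
  rw [Fintype.sum_option, heckeU_eq_sum_zmod]
  congr 1
  · exact (SlashAction.slash_one _ _).symm
  · exact Finset.sum_congr rfl fun j _ => D.slash_gl_heckeMatrix _ f

end ALData

/-- The sum over a set of right coset representatives is invariant. -/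
lemma sum_slash_reps_inv {G Γ : Subgroup SL(2, ℤ)} {ι : Type*} [Fintype ι] (δ : ι → SL(2, ℤ))
    (hδ : ∀ i, δ i ∈ G) (hex : ∀ γ ∈ G, ∃! i, γ * (δ i)⁻¹ ∈ Γ) {k : ℤ} {f : ℍ → ℂ}
    (hf : ∀ γ ∈ Γ, f ∣[k] γ = f) {g : SL(2, ℤ)} (hg : g ∈ G) :
    (∑ i, f ∣[k] δ i) ∣[k] g = ∑ i, f ∣[k] δ i := by
  have h : ∀ i, ∃ i', δ i * g * (δ i')⁻¹ ∈ Γ := fun i => (hex _ (mul_mem (hδ i) hg)).exists
  choose σ hσ using h
  have hinj : Function.Injective σ := by
    intro i i' hii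
    refine (hex _ (hδ i)).unique (by simp) ?_
    have := mul_mem (hσ i) (inv_mem (hσ i'))
    simpa [hii, mul_assoc] using this
  rw [SlashAction.sum_slash]
  calc ∑ i, (f ∣[k] δ i) ∣[k] g = ∑ i, f ∣[k] δ (σ i) := Finset.sum_congr rfl fun i _ => by
        rw [← SlashAction.slash_mul, show δ i * g = δ i * g * (δ (σ i))⁻¹ * δ (σ i) by group,
          SlashAction.slash_mul, hf _ (hσ i)]
    _ = ∑ i, f ∣[k] δ i := (Finite.injective_iff_bijective.1 hinj).sum_comp fun i => f ∣[k] δ i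

/-- The trace to level `R`: `f + U_q (f|W)` is `Γ₀(R)`-invariant when `q ∤ R` is prime. -/
theorem trace_inv {q R : ℕ} (hq : q.Prime) (hqR : ¬ q ∣ R) (D : ALData q R) {f : ℍ → ℂ}
    (hf : ∀ γ ∈ Gamma0 (q * R), f ∣[(2 : ℤ)] γ = f) {g : SL(2, ℤ)} (hg : g ∈ Gamma0 R) :
    (f + ModularForm.heckeU 2 q (f ∣[(2 : ℤ)] D.gl)) ∣[(2 : ℤ)] g =
      f + ModularForm.heckeU 2 q (f ∣[(2 : ℤ)] D.gl) := by
  have : Fact q.Prime := ⟨hq⟩
  rw [D.add_heckeU_eq_sum]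
  exact sum_slash_reps_inv D.traceRep D.traceRep_mem (fun γ hγ => D.traceRep_unique hq hqR hγ) hf hg

end Fermat.Agent.Newforms
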