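import Mathlib

/-!
# Transferring (generalised) eigenvectors along an equivariant linear map
-/

set_option autoImplicit false

namespace Fermat.Agent.Newforms

variable {E F σ : Type*} [AddCommGroup E] [Module ℂ E] [FiniteDimensional ℂ E] [AddCommGroup F]
  [Module ℂ F] {A : σ → Module.End ℂ E} {B : σ → Module.End ℂ F} {L : E →ₗ[ℂ] F}

open Polynomial in
/-- Commuting nilpotent-on-`f` operators on `F` which lift to commuting operators on `E`:
if `f ≠ 0` is in the image, a common null vector exists in `E`. -/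
lemma exists_common_ker (hcomm : ∀ s t, Commute (A s) (A t))
    (hL : ∀ s x, L (A s x) = B s (L x)) {x : E} (hx : L x ≠ 0)
    (hnil : ∀ s, ∃ n : ℕ, (B s ^ n) (L x) = 0) :
    ∃ y : E, y ≠ 0 ∧ ∀ s, A s y = 0 := by
  classical
  -- `L` intertwines the polynomials in the operators
  have hLp : ∀ s (P : Polynomial ℂ) z, L (aeval (A s) P z) = aeval (B s) P (L z) := by
    intro s P
    induction P using Polynomial.induction_on with
    | C c => simp [Module.algebraMap_end_apply]
    | add P Q hP hQ => intro z; simp [hP, hQ]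
    | monomial n c ih =>
      intro z
      rw [pow_succ, ← mul_assoc, map_mul _ (C c * X ^ n), map_mul _ (C c * X ^ n), aeval_X, aeval_X,
        Module.End.mul_apply,
        Module.End.mul_apply, ih, hL]
  -- a minimal stable subspace whose image contains `L x`
  obtain ⟨W, ⟨hWinv, w₀, hw₀, hLw₀⟩, hWmin⟩ :=
    WellFounded.has_min (wellFounded_lt (α := Submodule ℂ E))
      {W : Submodule ℂ E | (∀ s, ∀ w ∈ W, A s w ∈ W) ∧ ∃ w ∈ W, L w = L x}
      ⟨⊤, fun _ _ _ => Submodule.mem_top, x, Submodule.mem_top, rfl⟩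
  have hker : ∀ s (n : ℕ) t, ∀ w ∈ LinearMap.ker (A s ^ n), A t w ∈ LinearMap.ker (A s ^ n) :=
    fun s n t w hw => by
      rw [LinearMap.mem_ker] at hw ⊢
      rw [← Module.End.mul_apply, ((hcomm s t).pow_left n).eq, Module.End.mul_apply, hw, map_zero]
  have hW : ∀ s, ∃ n : ℕ, W ≤ LinearMap.ker (A s ^ n) := fun s => by
    obtain ⟨n₀, hn₀⟩ := hnil s
    obtain ⟨q, hq, hXq⟩ := Polynomial.exists_eq_pow_rootMultiplicity_mul_and_not_dvd
      (minpoly ℂ (A s)) (minpoly.ne_zero (Algebra.IsIntegral.isIntegral _)) 0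
    rw [C_0, sub_zero] at hq hXq
    set j := (minpoly ℂ (A s)).rootMultiplicity 0
    obtain ⟨α, β, hαβ⟩ := ((prime_X.coprime_iff_not_dvd).2 hXq).pow_left (m := j + n₀)
    refine ⟨j + n₀, fun w hw => ?_⟩
    have hu : aeval (A s) (β * q) w₀ ∈ W ⊓ LinearMap.ker (A s ^ (j + n₀)) := by
      refine ⟨Polynomial.induction_on (motive := fun P => aeval (A s) P w₀ ∈ W) (β * q)
        (fun c => by simpa [Module.algebraMap_end_apply] using W.smul_mem c hw₀)
        (fun P Q hP hQ => by simpa using W.add_mem hP hQ) (fun n c ih => ?_), ?_⟩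
      · rw [pow_succ', mul_left_comm, map_mul, aeval_X, Module.End.mul_apply]
        exact hWinv s _ ih
      · rw [SetLike.mem_coe, LinearMap.mem_ker, ← aeval_X_pow (R := ℂ) (A s),
          ← Module.End.mul_apply, ← map_mul,
          show X ^ (j + n₀) * (β * q) = X ^ n₀ * β * minpoly ℂ (A s) by rw [hq]; ring,
          map_mul, minpoly.aeval, mul_zero, LinearMap.zero_apply]
    have hLu : L (aeval (A s) (β * q) w₀) = L x := by
      rw [show β * q = 1 - α * X ^ (j + n₀) by rw [← hαβ]; ring, map_sub, map_one,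
        LinearMap.sub_apply, Module.End.one_apply, map_sub, hLp, hLw₀, sub_eq_self, pow_add,
        ← mul_assoc, map_mul, Module.End.mul_apply, aeval_X_pow, hn₀, map_zero]
    exact (Submodule.mem_inf.1 ((eq_of_le_of_not_lt inf_le_left (hWmin (W ⊓ LinearMap.ker _)
      ⟨fun t v hv => ⟨hWinv t v hv.1, hker s _ t v hv.2⟩, _, hu, hLu⟩)).ge hw)).2
  obtain ⟨U, ⟨hU0, hUW, hUinv⟩, hUmin⟩ :=
    WellFounded.has_min (wellFounded_lt (α := Submodule ℂ E))
      {U : Submodule ℂ E | U ≠ ⊥ ∧ U ≤ W ∧ ∀ s, ∀ u ∈ U, A s u ∈ U}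
      ⟨W, (Submodule.ne_bot_iff _).2 ⟨w₀, hw₀, fun h => hx (by rw [← hLw₀, h, map_zero])⟩,
        le_rfl, hWinv⟩
  obtain ⟨y, hyU, hy⟩ := Submodule.exists_mem_ne_zero_of_ne_bot hU0
  refine ⟨y, hy, fun s => ?_⟩
  obtain ⟨n, hn⟩ := hW s
  have h1 : U ⊓ LinearMap.ker (A s) ≠ ⊥ := fun hbot => hy <| by
    suffices ∀ m, ∀ u ∈ U, (A s ^ m) u = 0 → u = 0 from this n y hyU (hn (hUW hyU))
    intro m
    induction m with
    | zero => intro u _ h; simpa using h
    | succ m ih =>
      intro u hu h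
      rw [pow_succ, Module.End.mul_apply] at h
      exact (Submodule.eq_bot_iff _).1 hbot u ⟨hu, ih _ (hUinv s u hu) h⟩
  have h2 := eq_of_le_of_not_lt inf_le_left (hUmin _ ⟨h1, inf_le_left.trans hUW, fun t u hu =>
    ⟨hUinv t u hu.1, by simpa using hker s 1 t u (by simpa using hu.2)⟩⟩)
  exact (Submodule.mem_inf.1 (h2.ge hyU)).2

end Fermat.Agent.Newforms
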