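import Fermat.Agent.Newforms.Basic
import Fermat.Agent.Newforms.Averaging
import Fermat.Agent.Newforms.UpperGroups

/-!
# The Atkin–Lehner main lemma

A cusp form on `Γ₀(N)` whose coefficients `a_n`, `(n, N) = 1`, all vanish is a sum of oldforms
`g_p (p τ)`, `g_p` of level `N / p`.
-/

set_option autoImplicit false

noncomputable section

open CongruenceSubgroup UpperHalfPlane Matrix.SpecialLinearGroup ModularFormClass
open scoped MatrixGroups ModularForm

namespace Fermat.Agent.Newforms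

variable (N : ℕ) [NeZero N] (k : ℤ)

/-- Cusp functions invariant under `Γ(N)`. -/
def principalFns : Submodule ℂ (ℍ → ℂ) where
  carrier := {g | IsCuspFn k g ∧ ∀ γ ∈ Gamma N, g ∣[k] γ = g}
  zero_mem' := ⟨IsCuspFn.zero, fun γ _ => SlashAction.zero_slash k γ⟩
  add_mem' := fun {a b} ha hb =>
    ⟨ha.1.add hb.1, fun γ hγ => by rw [SlashAction.add_slash, ha.2 γ hγ, hb.2 γ hγ]⟩
  smul_mem' := fun c a ha =>
    ⟨ha.1.smul c, fun γ hγ => by rw [ModularForm.SL_smul_slash, ha.2 γ hγ]⟩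

variable {N k}

omit [NeZero N] in
lemma slash_mem_principalFns {g : ℍ → ℂ} (hg : g ∈ principalFns N k) (γ : SL(2, ℤ)) :
    g ∣[k] γ ∈ principalFns N k := by
  refine ⟨hg.1.slash_SL γ, fun δ hδ => ?_⟩
  have := Gamma_normal N
  have h := hg.2 _ (this.conj_mem δ hδ γ)
  conv_rhs => rw [← h]
  simp [← SlashAction.slash_mul]

variable (N k)

/-- The left action of `SL(2, ℤ)`. -/
def slashHom : SL(2, ℤ) →* Module.End ℂ (principalFns N k) where
  toFun γ :=
    { toFun := fun g => ⟨g.1 ∣[k] γ⁻¹, slash_mem_principalFns g.2 _⟩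
      map_add' := fun a b => Subtype.ext (by simp [SlashAction.add_slash])
      map_smul' := fun c a => Subtype.ext (by simp) }
  map_one' := LinearMap.ext fun g => Subtype.ext (by simp [SlashAction.slash_one])
  map_mul' := fun a b => LinearMap.ext fun g => Subtype.ext (by
    simp [mul_inv_rev, SlashAction.slash_mul])

instance : (Gamma N).Normal := Gamma_normal N

/-- The induced action of the finite group `SL(2, ℤ) ⧸ Γ(N)`. -/
def finiteRep : SL(2, ℤ) ⧸ Gamma N →* Module.End ℂ (principalFns N k) :=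
  QuotientGroup.lift (Gamma N) (slashHom N k) fun _γ hγ =>
    LinearMap.ext fun g => Subtype.ext (g.2.2 _ (inv_mem hγ))

variable {N k}

omit [NeZero N] in
lemma coe_finiteRep (γ : SL(2, ℤ)) (g : principalFns N k) :
    ((finiteRep N k (γ : SL(2, ℤ) ⧸ Gamma N) g : principalFns N k) : ℍ → ℂ) =
      (g : ℍ → ℂ) ∣[k] γ⁻¹ := rfl

omit [NeZero N] in
lemma finiteRep_fixed_iff (γ : SL(2, ℤ)) (g : principalFns N k) :
    finiteRep N k (γ : SL(2, ℤ) ⧸ Gamma N) g = g ↔ (g : ℍ → ℂ) ∣[k] γ = g := by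
  rw [Subtype.ext_iff, coe_finiteRep]
  constructor <;> intro h
  · conv_lhs => rw [← h]
    rw [← SlashAction.slash_mul, inv_mul_cancel, SlashAction.slash_one]
  · conv_lhs => rw [← h]
    rw [← SlashAction.slash_mul, mul_inv_cancel, SlashAction.slash_one]

/-- A series in `q^(1/N)` representing a function. -/
def HasSeries (N : ℕ) (g : ℍ → ℂ) (c : ℕ → ℂ) : Prop :=
  ∀ τ : ℍ, HasSum (fun m ↦ c m * Function.Periodic.qParam (N : ℝ) τ ^ m) (g τ)

lemma hasSeries_avgPow {p : ℕ} (hp : p.Prime) (hpN : p ∣ N) {g : principalFns N k} {c : ℕ → ℂ}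
    (hg : HasSeries N g c) :
    HasSeries N (avgPow (finiteRep N k) p
        ((ModularGroup.T ^ ((N / p : ℕ) : ℤ) : SL(2, ℤ)) : SL(2, ℤ) ⧸ Gamma N) g : principalFns N k)
      (fun m => if p ∣ m then c m else 0) := by
  intro τ
  set z : ℂ := Complex.exp (2 * Real.pi * Complex.I / p) with hz
  have hζ : IsPrimitiveRoot z⁻¹ p := (Complex.isPrimitiveRoot_exp p hp.ne_zero).inv
  have hNC : (N : ℂ) ≠ 0 := Nat.cast_ne_zero.2 (NeZero.ne N)
  have hpC : (p : ℂ) ≠ 0 := Nat.cast_ne_zero.2 hp.ne_zero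
  have hNp : ((N / p : ℕ) : ℂ) = (N : ℂ) / p :=
    Nat.cast_div hpN (Nat.cast_ne_zero.2 hp.ne_zero)
  have hterm : ∀ j : ℕ, HasSum
      (fun m => c m * Function.Periodic.qParam (N : ℝ) τ ^ m * (z⁻¹ ^ m) ^ j)
      ((((finiteRep N k (((ModularGroup.T ^ ((N / p : ℕ) : ℤ) : SL(2, ℤ)) :
        SL(2, ℤ) ⧸ Gamma N) ^ j)) g : principalFns N k) : ℍ → ℂ) τ) := by
    intro j
    rw [← QuotientGroup.mk_pow, ← zpow_natCast, ← zpow_mul, coe_finiteRep, ← zpow_neg,
      ModularForm.SL_slash_apply]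
    have hden : UpperHalfPlane.denom
        ((ModularGroup.T ^ (-(((N / p : ℕ) : ℤ) * (j : ℤ))) : SL(2, ℤ)) : GL (Fin 2) ℝ) τ = 1 := by
      generalize -(((N / p : ℕ) : ℤ) * (j : ℤ)) = n
      simp [UpperHalfPlane.denom, ModularGroup.coe_T_zpow, -map_zpow]
    rw [hden, one_zpow, mul_one]
    refine (hg _).congr_fun fun m => ?_
    rw [mul_assoc]
    congr 1
    rw [← pow_mul, mul_comm m j, pow_mul, ← mul_pow]
    congr 1
    rw [ModularGroup.coe_T_zpow_smul_eq, hz, Function.Periodic.qParam, Function.Periodic.qParam,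
      ← Complex.exp_neg, ← Complex.exp_nat_mul, ← Complex.exp_add]
    congr 1
    simp only [Int.cast_neg, Int.cast_mul, Int.cast_natCast, hNp, Complex.ofReal_natCast]
    field_simp
  have hsum := (hasSum_sum (s := Finset.range p) fun j _ => hterm j).mul_left (p : ℂ)⁻¹
  simp only [avgPow, LinearMap.smul_apply, LinearMap.sum_apply, Submodule.coe_smul,
    Submodule.coe_sum, Pi.smul_apply, Finset.sum_apply, smul_eq_mul]
  refine hsum.congr_fun fun m => ?_
  rw [← Finset.mul_sum]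
  by_cases hm : p ∣ m
  · rw [if_pos hm, (hζ.pow_eq_one_iff_dvd m).2 hm]
    simp only [one_pow, Finset.sum_const, Finset.card_range, nsmul_eq_mul, mul_one]
    field_simp
  · rw [if_neg hm, geom_sum_eq (fun h => hm ((hζ.pow_eq_one_iff_dvd m).1 h)), pow_right_comm,
      hζ.pow_eq_one, one_pow, sub_self, zero_div, mul_zero, mul_zero, zero_mul]

lemma hasSeries_coprimePart {g : principalFns N k} {c : ℕ → ℂ} (hg : HasSeries N g c) :
    ∀ l : List {p // p ∈ N.primeFactors},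
      HasSeries N (coprimePart (finiteRep N k) (fun p : {p // p ∈ N.primeFactors} => (p : ℕ))
          (fun p : {p // p ∈ N.primeFactors} => ((ModularGroup.T ^ ((N / (p : ℕ) : ℕ) : ℤ) : SL(2, ℤ)) :
            SL(2, ℤ) ⧸ Gamma N)) l g : principalFns N k)
        (fun m => if ∃ p ∈ l, (p : ℕ) ∣ m then 0 else c m)
  | [] => by simpa [coprimePart] using hg
  | p :: l => by
    have ih := hasSeries_coprimePart hg l
    have hp := Nat.mem_primeFactors.1 p.2
    intro τ
    simp only [coprimePart, Module.End.mul_apply, LinearMap.sub_apply, Module.End.one_apply,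
      Submodule.coe_sub, Pi.sub_apply]
    refine ((ih τ).sub (hasSeries_avgPow hp.1 hp.2.1 ih τ)).congr_fun fun m => ?_
    by_cases h1 : (p : ℕ) ∣ m <;> by_cases h2 : ∃ q ∈ l, (q : ℕ) ∣ m <;>
      simp only [List.mem_cons, exists_eq_or_imp, h1, h2, or_false, false_or, if_true, if_false,
        or_self, zero_mul, sub_zero, sub_self]

variable (N) in
/-- Image of a subgroup in the finite group `SL(2, ℤ) ⧸ Γ(N)`. -/
abbrev modN (S : Subgroup SL(2, ℤ)) : Subgroup (SL(2, ℤ) ⧸ Gamma N) :=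
  S.map (QuotientGroup.mk' (Gamma N))

/-- **Atkin–Lehner main lemma.** -/
theorem exists_eq_sum_levelRaise (f : CuspForm (Gamma0 N) k)
    (hf : ∀ n : ℕ, n.Coprime N → qCoeff f n = 0) :
    ∃ g : ∀ p : {p // p ∈ N.primeFactors}, CuspForm (Gamma0 (N / (p : ℕ))) k,
      f = ∑ p : {p // p ∈ N.primeFactors}, levelRaise (p : ℕ)
        (Nat.mul_div_cancel' (Nat.dvd_of_mem_primeFactors p.2)).dvd (g p) := by
  classical
  have hN := NeZero.ne N
  -- `F τ = f (τ / N) / N`
  set F : ℍ → ℂ := ⇑f ∣[k] ModularForm.heckeMatrix N 0 with hF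
  have hFinv : ∀ γ : SL(2, ℤ), γ ∈ gammaUp N → F ∣[k] γ = F := by
    intro γ hγ
    obtain ⟨b, hb⟩ := mem_gammaUp.1 hγ
    have hdet := Matrix.det_fin_two (γ : Matrix (Fin 2) (Fin 2) ℤ)
    rw [γ.det_coe] at hdet
    let γ' : SL(2, ℤ) := ⟨!![γ 0 0, b; N * γ 1 0, γ 1 1], by
      rw [Matrix.det_fin_two_of]; rw [hb] at hdet; linear_combination -hdet⟩
    have he : ModularForm.heckeMatrix N 0 * mapGL ℝ γ =
        mapGL ℝ γ' * ModularForm.heckeMatrix N 0 := by
      ext i j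
      fin_cases i <;> fin_cases j <;>
        simp [γ', Matrix.mul_apply, Fin.sum_univ_two, hN, hb, mul_comm]
    rw [hF, ModularForm.SL_slash, ← SlashAction.slash_mul]
    show ⇑f ∣[k] (ModularForm.heckeMatrix N 0 * mapGL ℝ γ) = _
    rw [he, SlashAction.slash_mul]
    congr 1
    exact slash_gamma0_eq f (mem_gamma0_iff_dvd.2 (dvd_mul_right (N : ℤ) _))
  have hGammaUp : Gamma N ≤ gammaUp N := fun γ hγ => (mem_gamma_iff_dvd.1 hγ).2.1
  have hFmem : F ∈ principalFns N k :=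
    ⟨by rw [hF, heckeMatrix_eq_ratGL hN]; exact (isCuspFn_cuspForm f).slash _,
      fun γ hγ => hFinv γ (hGammaUp hγ)⟩
  have hFser : HasSeries N (⟨F, hFmem⟩ : principalFns N k) (fun m => (N : ℂ)⁻¹ * qCoeff f m) := by
    intro τ
    show HasSum _ (F τ)
    rw [hF, ModularForm.slash_heckeMatrix_apply k hN]
    refine ((hasSum_qCoeff f _).mul_left (N : ℂ)⁻¹).congr_fun fun m => ?_
    rw [mul_assoc]
    congr 2
    rw [Function.Periodic.qParam, Function.Periodic.qParam, ModularForm.coe_heckeMatrix_smul hN]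
    simp only [Complex.ofReal_natCast, Complex.ofReal_one, Nat.cast_zero, add_zero, div_one,
      mul_div_assoc]
  have hp : ∀ p : {p // p ∈ N.primeFactors}, (p : ℕ).Prime ∧ (p : ℕ) ∣ N := fun p =>
    ⟨Nat.prime_of_mem_primeFactors p.2, Nat.dvd_of_mem_primeFactors p.2⟩
  let t : {p // p ∈ N.primeFactors} → SL(2, ℤ) ⧸ Gamma N := fun p =>
    ((ModularGroup.T ^ ((N / (p : ℕ) : ℕ) : ℤ) : SL(2, ℤ)) : SL(2, ℤ) ⧸ Gamma N)
  let l := (Finset.univ : Finset {p // p ∈ N.primeFactors}).toList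
  have hker : coprimePart (finiteRep N k) (fun p : {p // p ∈ N.primeFactors} => (p : ℕ)) t l ⟨F, hFmem⟩ = 0 := by
    refine Subtype.ext (funext fun τ => ?_)
    refine HasSum.unique (hasSeries_coprimePart hFser l τ) ?_
    refine hasSum_zero.congr_fun fun m => ?_
    by_cases h : ∃ p ∈ l, ((p : {p // p ∈ N.primeFactors}) : ℕ) ∣ m
    · simp only [if_pos h, zero_mul]
    · simp only [if_neg h]
      rw [hf m, mul_zero, zero_mul]
      refine Nat.coprime_of_dvd fun q hq hqm hqN => h ?_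
      exact ⟨⟨q, Nat.mem_primeFactors.2 ⟨hq, hqN, hN⟩⟩, Finset.mem_toList.2 (Finset.mem_univ _),
        hqm⟩
  have : ∀ p : {p // p ∈ N.primeFactors}, Fintype (modN N (localG N p)) := fun p => Fintype.ofFinite _
  obtain ⟨g, hg, hsum⟩ := exists_sum_fixed (finiteRep N k) (fun p : {p // p ∈ N.primeFactors} =>
      (p : ℕ)) t (fun p => modN N (localG N p)) (fun p => modN N (localH N p))
    (modN N (gammaUp N))
    (fun p => Subgroup.map_mono inf_le_left)
    (fun p => Subgroup.map_mono (localH_le_localG (hp p).2))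
    (fun p => Subgroup.mem_map.2 ⟨_, by
      simpa using T_zpow_mem_localG (hp p).1 hN (hp p).2 1, rfl⟩)
    (fun p => by
      rw [← QuotientGroup.mk_pow, QuotientGroup.eq_one_iff, ← zpow_natCast, ← zpow_mul,
        ← Nat.cast_mul, Nat.div_mul_cancel (hp p).2]
      simpa using ModularGroup_T_pow_mem_Gamma (N : ℤ) (N : ℤ) dvd_rfl)
    (fun p q hpq x hx y hy => by
      obtain ⟨a, ha, rfl⟩ := Subgroup.mem_map.1 hx
      obtain ⟨b, hb, rfl⟩ := Subgroup.mem_map.1 hy
      have := commutator_mem_gamma (hp p).1 (hp q).1 (fun h => hpq (Subtype.ext h)) hN ha.2 hb.2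
      rw [← QuotientGroup.eq_one_iff] at this
      simpa [commute_iff_eq, mul_inv_eq_one, mul_inv_eq_iff_eq_mul] using this)
    (fun p v hH ht x hx => by
      obtain ⟨γ, hγ, rfl⟩ := Subgroup.mem_map.1 hx
      obtain ⟨h, hh, j, hj⟩ := exists_mul_mem_gammaUp (hp p).1 hN (hp p).2 hγ.1
      set T' := ModularGroup.T ^ (j * ((N / (p : ℕ) : ℕ) : ℤ))
      have hmem : γ * h * T' ∈ localH N p :=
        Subgroup.mem_inf.2 ⟨hj, mul_mem (mul_mem hγ.2 hh.2)
          (T_zpow_mem_localG (hp p).1 hN (hp p).2 j).2⟩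
      have hT : (v : ℍ → ℂ) ∣[k] T' = v := by
        rw [← finiteRep_fixed_iff, show T' = (ModularGroup.T ^ ((N / (p : ℕ) : ℕ) : ℤ)) ^ j by
          rw [← zpow_mul, mul_comm], QuotientGroup.mk_zpow]
        have : ∀ i : ℕ, finiteRep N k (t p ^ i) v = v := fun i => by
          induction i with
          | zero => simp
          | succ i ih => rw [pow_succ', rho_mul_apply, ih, ht]
        cases j with
        | ofNat i => rw [Int.ofNat_eq_natCast, zpow_natCast]; exact this i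
        | negSucc i => rw [zpow_negSucc]; exact rho_inv_apply_of_fixed _ (this _)
      have h1 : (v : ℍ → ℂ) ∣[k] h = v :=
        (finiteRep_fixed_iff h v).1 (hH _ (Subgroup.mem_map_of_mem _ hh))
      have h2 : (v : ℍ → ℂ) ∣[k] (γ * h * T') = v :=
        (finiteRep_fixed_iff _ v).1 (hH _ (Subgroup.mem_map_of_mem _ hmem))
      refine (finiteRep_fixed_iff γ v).2 ?_
      have hinv : ∀ u : SL(2, ℤ), (v : ℍ → ℂ) ∣[k] u = v → (v : ℍ → ℂ) ∣[k] u⁻¹ = v :=
        fun u hu => by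
          conv_lhs => rw [← hu]
          rw [← SlashAction.slash_mul, mul_inv_cancel, SlashAction.slash_one]
      have : γ = (γ * h * T') * T'⁻¹ * h⁻¹ := by group
      rw [this, SlashAction.slash_mul, SlashAction.slash_mul, h2, hinv _ hT, hinv _ h1])
    (fun p x hx y hy => by
      obtain ⟨a, ha, rfl⟩ := Subgroup.mem_map.1 hx
      obtain ⟨b, hb, rfl⟩ := Subgroup.mem_map.1 hy
      refine Subgroup.mem_map.2 ⟨a * b * a⁻¹, Subgroup.mem_inf.2 ⟨?_, ?_⟩, by simp⟩
      · exact mul_mem (mul_mem (gammaUp_anti (div_dvd_self_of_dvd (hp p).2) ha) hb.1)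
          (inv_mem (gammaUp_anti (div_dvd_self_of_dvd (hp p).2) ha))
      · exact (Gamma_normal _).conj_mem b hb.2 a)
    l (Finset.nodup_toList _) ⟨F, hFmem⟩
    (fun x hx => by
      obtain ⟨γ, hγ, rfl⟩ := Subgroup.mem_map.1 hx
      exact (finiteRep_fixed_iff γ _).2 (hFinv γ hγ))
    hker
  have hgup : ∀ p (γ : SL(2, ℤ)), γ ∈ gammaUp (N / (p : {p // p ∈ N.primeFactors})) →
      (g p : ℍ → ℂ) ∣[k] γ = g p := by
    intro p γ hγ
    obtain ⟨h, hh, j, hj⟩ := exists_mul_mem_gammaUp (hp p).1 hN (hp p).2 hγ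
    set u := h * ModularGroup.T ^ (j * ((N / (p : ℕ) : ℕ) : ℤ))
    have hu : u ∈ localG N p :=
      mul_mem (localH_le_localG (hp p).2 hh) (T_zpow_mem_localG (hp p).1 hN (hp p).2 j)
    have h1 : (g p : ℍ → ℂ) ∣[k] (γ * u) = g p :=
      (finiteRep_fixed_iff _ _).1
        ((hg p).1 _ (Subgroup.mem_map_of_mem _ (by simpa [u, mul_assoc] using hj)))
    have h2 : (g p : ℍ → ℂ) ∣[k] u⁻¹ = g p :=
      (finiteRep_fixed_iff _ _).1 ((hg p).2 _ (Subgroup.mem_map_of_mem _ (inv_mem hu)))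
    have : γ = (γ * u) * u⁻¹ := by group
    rw [this, SlashAction.slash_mul, h1, h2]
  have hd : ∀ p : {p // p ∈ N.primeFactors}, N / (p : ℕ) ≠ 0 := fun p =>
    (Nat.div_pos (Nat.le_of_dvd (Nat.pos_of_ne_zero hN) (hp p).2) (hp p).1.pos).ne'
  have : ∀ p : {p // p ∈ N.primeFactors}, NeZero (N / (p : ℕ)) := fun p => ⟨hd p⟩
  -- scale back
  refine ⟨fun p => mkCusp (((N : ℂ) * ((((N / (p : ℕ) : ℕ)) : ℂ) ^ (k - 1))⁻¹) •
      ((g p : ℍ → ℂ) ∣[k] ModularForm.heckeDiagMatrix (N / (p : ℕ))))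
    (fun γ hγ => by
      rw [ModularForm.SL_smul_slash]
      congr 1
      refine slash_heckeDiag_inv (M := 1) (hd p) (fun γ' _ h01 => hgup p γ' h01) ?_
      rwa [mul_one])
    (((heckeDiagMatrix_eq_ratGL (hd p)) ▸ (g p).2.1.slash _).smul _), ?_⟩
  ext τ
  rw [FunLike.coe_sum, Finset.sum_apply]
  have hFsum : F = ∑ p : {p // p ∈ N.primeFactors}, (g p : ℍ → ℂ) := by
    have := congrArg Subtype.val hsum
    simpa [l, Finset.sum_map_toList] using this
  have hτ : f τ = (N : ℂ) * F (ModularForm.heckeDiagMatrix N • τ) := by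
    rw [hF, ModularForm.slash_heckeMatrix_apply k hN, ← mul_assoc,
      mul_inv_cancel₀ (Nat.cast_ne_zero.2 hN), one_mul]
    congr 1
    refine UpperHalfPlane.ext ?_
    rw [ModularForm.coe_heckeMatrix_smul hN, ModularForm.coe_heckeDiagMatrix_smul hN]
    simp only [Nat.cast_zero, add_zero]
    exact (mul_div_cancel_left₀ _ (Nat.cast_ne_zero.2 hN)).symm
  rw [hτ, hFsum, Finset.sum_apply, Finset.mul_sum]
  refine Finset.sum_congr rfl fun p _ => ?_
  rw [levelRaise_apply, coe_mkCusp, Pi.smul_apply, smul_eq_mul,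
    ModularForm.slash_heckeDiagMatrix_apply k (hd p), mul_assoc, ← mul_assoc _ _ ((g p : ℍ → ℂ) _),
    inv_mul_cancel₀ (zpow_ne_zero _ (Nat.cast_ne_zero.2 (hd p))), one_mul]
  congr 2
  refine congrArg _ (UpperHalfPlane.ext ?_)
  rw [ModularForm.coe_heckeDiagMatrix_smul hN, ModularForm.coe_heckeDiagMatrix_smul (hd p),
    ModularForm.coe_heckeDiagMatrix_smul (hp p).1.ne_zero, ← mul_assoc, ← Nat.cast_mul,
    Nat.div_mul_cancel (hp p).2]

end Fermat.Agent.Newforms
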