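import Fermat.Prelude.Def_FLTPrelim_ModularRep
import Fermat.Agent.Newforms.Eigen

/-!
# Raising eigenforms to multiples of the level
-/

set_option autoImplicit false

noncomputable section

open CongruenceSubgroup ModularFormClass
open Fermat.Agent.HeckeDuality (coeff_heckeOp eulerWeight)

namespace Fermat.Agent.Newforms

/-- Eigenforms of level `M` give eigenforms of level `N`, `M ∣ N`, with the same coefficient at
every prime not dividing `N / M`, in particular at every prime not dividing `N`. -/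
theorem exists_eigenform_of_dvd {M N : ℕ} [NeZero N] (h : M ∣ N) {g : CuspForm (Gamma0 M) 2}
    (hg : g.IsNormalizedEigenform) :
    ∃ f : CuspForm (Gamma0 N) 2, f.IsNormalizedEigenform ∧
      ∀ ℓ, ℓ.Prime → (¬ ℓ ∣ N / M ∨ ¬ ℓ ∣ N) → qCoeff f ℓ = qCoeff g ℓ := by
  have : NeZero M := ⟨fun h0 => NeZero.ne N (Nat.eq_zero_of_zero_dvd (h0 ▸ h))⟩
  refine exists_eigenform_of_eigen (f := levelIncl h g)
    (fun h0 => hg.ne_zero (levelRaise_injective (M := M) (d := 1) (by rwa [one_mul])
      (h0.trans (map_zero (levelIncl h)).symm))) _ (qCoeff g) fun ℓ hℓ hP => ?_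
  have hℓ' : ℓ ∣ N ↔ ℓ ∣ M := by
    refine ⟨fun hN => ?_, fun hM => hM.trans h⟩
    rcases hP with hP | hP
    · rw [← Nat.mul_div_cancel' h, hℓ.dvd_mul] at hN
      exact hN.resolve_right hP
    · exact absurd hN hP
  rw [hOp_levelIncl hℓ h hℓ', hOp_of_isNormalizedEigenform hg hℓ, map_smul]

end Fermat.Agent.Newforms
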