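import Fermat.Agent.Newforms.Domain
import Fermat.Agent.Newforms.AtkinLehner
import Fermat.Agent.Newforms.UpperGroups

/-!
# The Petersson product on `S₂(Γ₀(N))` and self-adjointness of `T_ℓ`, `ℓ ∤ N`
-/

set_option autoImplicit false

noncomputable section

open MeasureTheory UpperHalfPlane CongruenceSubgroup Matrix.SpecialLinearGroup
open scoped MatrixGroups Pointwise ModularForm ComplexConjugate

namespace Fermat.Agent.Newforms

open P2MW.S_ModularForm_heckeT_slash_eq_self_of_mem_Gamma0.ModularForm.HeckeSlashInvariance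

/-- The image of a subgroup of `SL(2, ℤ)` among the transformations of `ℍ`. -/
def imageSub (S : Subgroup SL(2, ℤ)) : ModSub := ⟨S.map moebiusZ, Subgroup.map_le_range _ _⟩

lemma relIndex_imageSub (S : Subgroup SL(2, ℤ)) [S.FiniteIndex] :
    (imageSub S).1.relIndex modTrans ≠ 0 := by
  have he : (imageSub S).1.subgroupOf modTrans = S.map moebiusZ.rangeRestrict := by
    ext ⟨x, hx⟩
    simp [imageSub, Subgroup.mem_subgroupOf, Subtype.ext_iff]
  rw [Subgroup.relIndex, he]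
  exact fun h0 => Subgroup.FiniteIndex.index_ne_zero (H := S)
    (Nat.eq_zero_of_zero_dvd (h0 ▸ S.index_map_dvd moebiusZ.rangeRestrict_surjective))

/-- A measurable fundamental domain of positive finite volume. -/
structure GoodDomain (H : ModSub) (F : Set ℍ) : Prop where
  meas : MeasurableSet F
  isFD : IsFundamentalDomain (H.1 : Subgroup (Equiv.Perm ℍ)) F (volume : Measure ℍ)
  pos : 0 < volume F
  lt_top : volume F < ⊤

lemma exists_goodDomain {H : ModSub} (hH : H.1.relIndex modTrans ≠ 0) :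
    ∃ F, GoodDomain H F := by
  obtain ⟨t, htm, ht, hvol, -⟩ := exists_domain_subgroup (E := ℝ) fullSub H H.2 hH measurableSet_fdo
    isFundamentalDomain_fdo
  refine ⟨t, htm, ht, ?_, ?_⟩
  · rw [hvol]
    exact ENNReal.mul_pos (by exact_mod_cast hH) volume_fdo_pos.ne'
  · rw [hvol]
    exact ENNReal.mul_lt_top (ENNReal.natCast_lt_top _) volume_fdo_lt_top

/-- The mean of `G` over `F`. -/
def meanOn (F : Set ℍ) (G : ℍ → ℂ) : ℂ := ((volume F).toReal : ℂ)⁻¹ * ∫ x in F, G x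

/-- Continuous and bounded. -/
def IsBC (G : ℍ → ℂ) : Prop := Continuous G ∧ ∃ C, ∀ x, ‖G x‖ ≤ C

lemma IsBC.integrableOn {G : ℍ → ℂ} (hG : IsBC G) {F : Set ℍ} (hF : volume F < ⊤) :
    IntegrableOn G F := by
  obtain ⟨C, hC⟩ := hG.2
  exact IntegrableOn.of_bound hF hG.1.aestronglyMeasurable C (Filter.Eventually.of_forall hC)

lemma meanOn_eq_of_le {H K : ModSub} (hle : K.1 ≤ H.1) (hK : K.1.relIndex modTrans ≠ 0)
    {F F' : Set ℍ} (hF : GoodDomain H F) (hF' : GoodDomain K F') {G : ℍ → ℂ} (hG : IsBC G)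
    (hinv : ∀ g ∈ H.1, ∀ x, G (g x) = G x) : meanOn F' G = meanOn F G := by
  have hfin : K.1.relIndex H.1 ≠ 0 := fun h0 => hK
    (Nat.eq_zero_of_zero_dvd (h0 ▸ (Dvd.intro _ (Subgroup.relIndex_mul_relIndex K.1 H.1 _ hle H.2))))
  obtain ⟨t, htm, ht, hvol, hint⟩ := exists_domain_subgroup (E := ℂ) H K hle hfin hF.meas hF.isFD
  obtain ⟨-, hint⟩ := hint G (fun g x => hinv g g.2 x) (hG.integrableOn hF.lt_top)
  rw [meanOn, meanOn, hF'.isFD.measure_eq ht,
    hF'.isFD.setIntegral_eq ht (fun g x => hinv g (hle g.2) x), hvol, hint, ENNReal.toReal_mul,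
    ENNReal.toReal_natCast, nsmul_eq_mul]
  have : (K.1.relIndex H.1 : ℂ) ≠ 0 := by exact_mod_cast hfin
  push_cast
  field_simp

lemma meanOn_eq {H K : ModSub} (hH : H.1.relIndex modTrans ≠ 0) (hK : K.1.relIndex modTrans ≠ 0)
    {F F' : Set ℍ} (hF : GoodDomain H F) (hF' : GoodDomain K F') {G : ℍ → ℂ} (hG : IsBC G)
    (hinvH : ∀ g ∈ H.1, ∀ x, G (g x) = G x) (hinvK : ∀ g ∈ K.1, ∀ x, G (g x) = G x) :
    meanOn F' G = meanOn F G := by
  let L : ModSub := ⟨H.1 ⊓ K.1, inf_le_left.trans H.2⟩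
  have hL : L.1.relIndex modTrans ≠ 0 := Subgroup.relIndex_inf_ne_zero hH hK
  obtain ⟨t, ht⟩ := exists_goodDomain hL
  rw [← meanOn_eq_of_le inf_le_left hL hF ht hG hinvH, meanOn_eq_of_le inf_le_right hL hF' ht hG hinvK]

/-- Conjugation of a group of transformations by a real matrix. -/
def conjSub (H : ModSub) (A : GL (Fin 2) ℝ)
    (hA : ∀ g ∈ H.1, moebius A * g * (moebius A)⁻¹ ∈ modTrans) : ModSub :=
  ⟨H.1.map (MulAut.conj (moebius A)).toMonoidHom, by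
    rintro _ ⟨g, hg, rfl⟩
    exact hA g hg⟩

lemma goodDomain_conj {H : ModSub} {F : Set ℍ} (hF : GoodDomain H F) (A : GL (Fin 2) ℝ)
    (hA : ∀ g ∈ H.1, moebius A * g * (moebius A)⁻¹ ∈ modTrans) :
    GoodDomain (conjSub H A hA) (moebius A '' F) := by
  have hpre : moebius A '' F = (moebius A⁻¹) ⁻¹' F := by
    rw [Equiv.image_eq_preimage_symm, map_inv]; rfl
  have hvol : volume (moebius A '' F) = volume F := by
    rw [hpre]
    exact (measurePreserving_moebius A⁻¹).measure_preimage hF.meas.nullMeasurableSet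
  refine ⟨?_, ?_, hvol ▸ hF.pos, hvol ▸ hF.lt_top⟩
  · rw [hpre]
    exact (measurePreserving_moebius A⁻¹).measurable hF.meas
  · refine hF.isFD.image_of_equiv (moebius A) ?_
      ((H.1.equivMapOfInjective (MulAut.conj (moebius A)).toMonoidHom
        (MulAut.conj (moebius A)).injective).symm.toEquiv) fun g x => ?_
    · have : ((moebius A).symm : ℍ → ℍ) = moebius A⁻¹ := by rw [map_inv]; rfl
      rw [this]
      exact (measurePreserving_moebius A⁻¹).quasiMeasurePreserving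
    · set e := H.1.equivMapOfInjective (MulAut.conj (moebius A)).toMonoidHom
        (MulAut.conj (moebius A)).injective
      obtain ⟨h, rfl⟩ := e.surjective g
      show moebius A ((e.symm (e h) : Equiv.Perm ℍ) x) = (e h : Equiv.Perm ℍ) (moebius A x)
      rw [e.symm_apply_apply, Subgroup.coe_equivMapOfInjective_apply]
      simp

/-- Change of variable by a matrix conjugating a congruence group into the modular group. -/
lemma meanOn_comp {H H' : ModSub} (hH' : H'.1.relIndex modTrans ≠ 0) {F F' : Set ℍ}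
    (hF : GoodDomain H F) (hF' : GoodDomain H' F') (A : GL (Fin 2) ℝ)
    (hA : ∀ g ∈ H.1, moebius A * g * (moebius A)⁻¹ ∈ modTrans)
    (hAi : (conjSub H A hA).1.relIndex modTrans ≠ 0) {G : ℍ → ℂ} (hG : IsBC G)
    (hinv : ∀ g ∈ H.1, ∀ x, G (A • g x) = G (A • x)) (hinv' : ∀ g ∈ H'.1, ∀ x, G (g x) = G x) :
    meanOn F (fun x => G (A • x)) = meanOn F' G := by
  have hgd := goodDomain_conj hF A hA
  have hinv'' : ∀ g ∈ (conjSub H A hA).1, ∀ x, G (g x) = G x := by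
    rintro _ ⟨g, hg, rfl⟩ x
    show G (moebius A (g ((moebius A)⁻¹ x))) = G x
    refine (hinv g hg ((moebius A)⁻¹ x)).trans ?_
    show G (moebius A ((moebius A)⁻¹ x)) = G x
    simp
  rw [meanOn_eq hAi hH' hgd hF' hG hinv'' hinv']
  have hpre : (moebius A : ℍ → ℍ) ⁻¹' (moebius A '' F) = F :=
    Set.preimage_image_eq _ (moebius A).injective
  have hemb : MeasurableEmbedding (moebius A : ℍ → ℍ) := (MeasurableEquiv.smul A).measurableEmbedding
  have hvol : volume (moebius A '' F) = volume F := by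
    conv_rhs => rw [← hpre]
    exact ((measurePreserving_moebius A).measure_preimage hgd.meas.nullMeasurableSet).symm
  rw [meanOn, meanOn, hvol]
  congr 1
  have h := (measurePreserving_moebius A).setIntegral_preimage_emb hemb G (moebius A '' F)
  rw [hpre] at h
  exact h

/-- Holomorphic functions with bounded weight two Petersson norm. -/
def Bdd2 (u : ℍ → ℂ) : Prop := Continuous u ∧ ∃ C, ∀ x, ‖petersson 2 u u x‖ ≤ C

lemma Bdd2.slash {u : ℍ → ℂ} {A : GL (Fin 2) ℝ} (hu : Bdd2 u)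
    (hc : Continuous (u ∣[(2 : ℤ)] A)) :
    Bdd2 (u ∣[(2 : ℤ)] A) := by
  obtain ⟨C, hC⟩ := hu.2
  refine ⟨hc, C, fun x => ?_⟩
  rw [petersson_slash]
  simpa [norm_σ] using hC (A • x)

lemma norm_petersson_sq (u v : ℍ → ℂ) (x : ℍ) :
    ‖petersson 2 u v x‖ ^ 2 = ‖petersson 2 u u x‖ * ‖petersson 2 v v x‖ := by
  simp [petersson]
  ring

lemma Bdd2.isBC {u v : ℍ → ℂ} (hu : Bdd2 u) (hv : Bdd2 v) : IsBC (petersson 2 u v) := by
  obtain ⟨C, hC⟩ := hu.2
  obtain ⟨D, hD⟩ := hv.2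
  refine ⟨petersson_continuous 2 hu.1 hv.1, Real.sqrt (max C 0 * max D 0), fun x => ?_⟩
  refine Real.le_sqrt_of_sq_le ?_
  rw [norm_petersson_sq]
  exact mul_le_mul ((hC x).trans (le_max_left _ _)) ((hD x).trans (le_max_left _ _)) (norm_nonneg _)
    (le_max_right _ _)

lemma petersson_invariant {S : Subgroup SL(2, ℤ)} {u v : ℍ → ℂ}
    (hu : ∀ γ ∈ S, u ∣[(2 : ℤ)] γ = u) (hv : ∀ γ ∈ S, v ∣[(2 : ℤ)] γ = v) :
    ∀ g ∈ (imageSub S).1, ∀ x, petersson 2 u v (g x) = petersson 2 u v x := by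
  rintro _ ⟨γ, hγ, rfl⟩ x
  rw [moebiusZ_apply, ← petersson_slash_SL, hu γ hγ, hv γ hγ]

variable {N : ℕ} [NeZero N]

lemma bdd2_cuspForm (f : CuspForm (Gamma0 N) 2) : Bdd2 f :=
  ⟨(CuspFormClass.holo f).continuous,
    CuspFormClass.petersson_bounded_left 2 (Subgroup.map (mapGL ℝ) (Gamma0 N)) f f⟩

lemma bdd2_slash (f : CuspForm (Gamma0 N) 2) (A : GL (Fin 2) ℝ) : Bdd2 (⇑f ∣[(2 : ℤ)] A) :=
  (bdd2_cuspForm f).slash ((CuspFormClass.holo f).slash 2 A).continuous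

variable (N) in
/-- A chosen fundamental domain of `Γ₀(N)`. -/
def gamma0Domain : Set ℍ := (exists_goodDomain (relIndex_imageSub (Gamma0 N))).choose

lemma goodDomain_gamma0Domain : GoodDomain (imageSub (Gamma0 N)) (gamma0Domain N) :=
  (exists_goodDomain (relIndex_imageSub (Gamma0 N))).choose_spec

/-- The normalised Petersson product. -/
def peterssonInner (f g : CuspForm (Gamma0 N) 2) : ℂ :=
  meanOn (gamma0Domain N) (petersson 2 f g)

/-! ### Self-adjointness -/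

/-- An element of `Γ(M)` conjugated by an integral matrix of determinant `ℓ`, `ℓ D ∣ M`. -/
lemma exists_gamma_conj {D ℓ M : ℕ} (hℓ : ℓ ≠ 0) (hM : D * ℓ ∣ M) (A : Matrix (Fin 2) (Fin 2) ℤ)
    (hdet : A.det = ℓ) {γ : SL(2, ℤ)} (hγ : γ ∈ Gamma M) :
    ∃ γ' ∈ Gamma D, A * (γ : Matrix (Fin 2) (Fin 2) ℤ) = (γ' : Matrix (Fin 2) (Fin 2) ℤ) * A := by
  have hd : ((D * ℓ : ℕ) : ℤ) ∣ (M : ℤ) := Int.natCast_dvd_natCast.2 hM
  rw [mem_gamma_iff_dvd] at hγ
  obtain ⟨a, ha⟩ := hd.trans hγ.1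
  obtain ⟨b, hb⟩ := hd.trans hγ.2.1
  obtain ⟨c, hc⟩ := hd.trans hγ.2.2.1
  obtain ⟨e, he⟩ := hd.trans hγ.2.2.2
  push_cast at ha hb hc he
  set X : Matrix (Fin 2) (Fin 2) ℤ := !![a, b; c, e]
  have hγX : (γ : Matrix (Fin 2) (Fin 2) ℤ) = 1 + ((D : ℤ) * ℓ) • X := by
    ext i j
    fin_cases i <;> fin_cases j <;> simp [X]
    · linear_combination ha
    · linear_combination hb
    · linear_combination hc
    · linear_combination he
  set B : Matrix (Fin 2) (Fin 2) ℤ := 1 + (D : ℤ) • (A * X * A.adjugate)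
  have hmul : A * (γ : Matrix (Fin 2) (Fin 2) ℤ) = B * A := by
    simp only [B, hγX, Matrix.mul_add, Matrix.add_mul, mul_one, one_mul, Matrix.smul_mul,
      Matrix.mul_smul, Matrix.mul_assoc, Matrix.adjugate_mul, hdet, smul_smul]
  have hdetB : B.det = 1 := by
    have h := congrArg Matrix.det hmul
    rw [Matrix.det_mul, Matrix.det_mul, γ.det_coe, mul_one, hdet] at h
    refine mul_right_cancel₀ (b := (ℓ : ℤ)) (Int.natCast_ne_zero.2 hℓ) ?_
    rw [one_mul]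
    exact h.symm
  refine ⟨⟨B, hdetB⟩, ?_, hmul⟩
  rw [mem_gamma_iff_dvd]
  refine ⟨?_, ?_, ?_, ?_⟩ <;> simp [B, Matrix.smul_apply, -zsmul_eq_mul, -nsmul_eq_mul, -natCast_zsmul]

lemma mapGL_mul_of_mat {A : GL (Fin 2) ℝ} {B : Matrix (Fin 2) (Fin 2) ℤ}
    (hA : (A : Matrix (Fin 2) (Fin 2) ℝ) = realMat B) {γ γ' : SL(2, ℤ)}
    (h : B * (γ : Matrix (Fin 2) (Fin 2) ℤ) = (γ' : Matrix (Fin 2) (Fin 2) ℤ) * B) :
    A * mapGL ℝ γ = mapGL ℝ γ' * A := by
  refine Units.ext ?_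
  rw [Units.val_mul, Units.val_mul, mapGL_eq_realMat, mapGL_eq_realMat, hA, ← Matrix.map_mul,
    ← Matrix.map_mul, h]

section adjoint

variable {ℓ : ℕ} [Fact ℓ.Prime]

omit [NeZero N] in
lemma slash_invariant_of_mat {M : ℕ} (hM : N * ℓ ∣ M) {A : GL (Fin 2) ℝ}
    {B : Matrix (Fin 2) (Fin 2) ℤ} (hA : (A : Matrix (Fin 2) (Fin 2) ℝ) = realMat B)
    (hdet : B.det = ℓ) (f : CuspForm (Gamma0 N) 2) :
    ∀ γ ∈ Gamma M, (⇑f ∣[(2 : ℤ)] A) ∣[(2 : ℤ)] γ = ⇑f ∣[(2 : ℤ)] A := by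
  intro γ hγ
  obtain ⟨γ', hγ', h⟩ := exists_gamma_conj (Fact.out : ℓ.Prime).ne_zero hM B hdet hγ
  rw [ModularForm.SL_slash, ← SlashAction.slash_mul]
  show ⇑f ∣[(2 : ℤ)] (A * mapGL ℝ γ) = _
  rw [mapGL_mul_of_mat hA h, SlashAction.slash_mul]
  congr 1
  exact slash_gamma0_eq f (Gamma0_mem.2 (Gamma_mem.1 hγ').2.2.1)

omit [NeZero N] in
lemma slash_invariant_self {M : ℕ} (hM : N ∣ M) (f : CuspForm (Gamma0 N) 2) :
    ∀ γ ∈ Gamma M, ⇑f ∣[(2 : ℤ)] γ = ⇑f := fun _γ hγ =>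
  slash_gamma0_eq f (mem_gamma0_iff_dvd.2
    ((Int.natCast_dvd_natCast.2 hM).trans (mem_gamma_iff_dvd.1 hγ).2.2.1))

variable (N ℓ) in
/-- A chosen fundamental domain of `Γ(Nℓ)`. -/
def auxDomain [NeZero (N * ℓ)] : Set ℍ :=
  (exists_goodDomain (relIndex_imageSub (Gamma (N * ℓ)))).choose

omit [NeZero N] [Fact (Nat.Prime ℓ)] in
lemma goodDomain_auxDomain [NeZero (N * ℓ)] :
    GoodDomain (imageSub (Gamma (N * ℓ))) (auxDomain N ℓ) :=
  (exists_goodDomain (relIndex_imageSub (Gamma (N * ℓ)))).choose_spec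

/-- `mean pet(f|A, g) = mean pet(f, g|A')` when `A' A = ℓ`. -/
lemma mean_adjoint [NeZero (N * ℓ)] (f g : CuspForm (Gamma0 N) 2) {A A' : GL (Fin 2) ℝ}
    {B : Matrix (Fin 2) (Fin 2) ℤ} (hA : (A : Matrix (Fin 2) (Fin 2) ℝ) = realMat B)
    (hdet : B.det = ℓ) (hA' : (A' : Matrix (Fin 2) (Fin 2) ℝ) = realMat B.adjugate) :
    meanOn (auxDomain N ℓ) (petersson 2 (⇑f ∣[(2 : ℤ)] A) g) =
      meanOn (auxDomain N ℓ) (petersson 2 f (⇑g ∣[(2 : ℤ)] A')) := by
  have hℓ : ℓ ≠ 0 := (Fact.out : ℓ.Prime).ne_zero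
  have hdet' : B.adjugate.det = (ℓ : ℤ) := by
    rw [Matrix.det_adjugate, hdet]; simp
  have hmul : ((A' * A : GL (Fin 2) ℝ) : Matrix (Fin 2) (Fin 2) ℝ) = (ℓ : ℝ) • ((1 : GL (Fin 2) ℝ) : Matrix (Fin 2) (Fin 2) ℝ) := by
    rw [Units.val_mul, hA, hA', ← Matrix.map_mul, Matrix.adjugate_mul, hdet, Units.val_one]
    ext i j
    fin_cases i <;> fin_cases j <;> simp [← Matrix.diagonal_natCast]
  have hAdet : 0 < A.det.val := by
    rw [Matrix.GeneralLinearGroup.val_det_apply, hA,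
      show realMat B = (Int.castRingHom ℝ).mapMatrix B from rfl, ← RingHom.map_det, hdet]
    simpa using Nat.pos_of_ne_zero hℓ
  have hgA : (⇑g ∣[(2 : ℤ)] A') ∣[(2 : ℤ)] A = ⇑g := by
    rw [← SlashAction.slash_mul, ALData.slash_two_of_smul (g' := 1)
      (Nat.cast_pos.2 (Nat.pos_of_ne_zero hℓ)) hmul, SlashAction.slash_one]
  have hpt : petersson 2 (⇑f ∣[(2 : ℤ)] A) g =
      fun x => petersson 2 f (⇑g ∣[(2 : ℤ)] A') (A • x) := by
    funext x
    conv_lhs => rw [← hgA]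
    rw [petersson_slash, UpperHalfPlane.σ, if_pos hAdet]
    simp
  have hinvL := petersson_invariant (S := Gamma (N * ℓ)) (slash_invariant_of_mat dvd_rfl hA hdet f)
    (slash_invariant_self (dvd_mul_right N ℓ) g)
  have hmem : ∀ h ∈ (imageSub (Gamma (N * ℓ))).1,
      moebius A * h * (moebius A)⁻¹ ∈ modTrans := by
    rintro _ ⟨γ, hγ, rfl⟩
    obtain ⟨γ', -, h⟩ := exists_gamma_conj hℓ dvd_rfl B hdet hγ
    refine ⟨γ', ?_⟩
    rw [eq_mul_inv_iff_mul_eq]
    show moebius (mapGL ℝ γ') * moebius A = moebius A * moebius (mapGL ℝ γ)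
    rw [← map_mul, ← map_mul, mapGL_mul_of_mat hA h]
  have : NeZero (N * ℓ * ℓ) := ⟨mul_ne_zero (NeZero.ne _) hℓ⟩
  have hfin : (conjSub (imageSub (Gamma (N * ℓ))) A hmem).1.relIndex modTrans ≠ 0 := by
    have hle : (imageSub (Gamma (N * ℓ * ℓ))).1 ≤
        (conjSub (imageSub (Gamma (N * ℓ))) A hmem).1 := by
      rintro _ ⟨δ, hδ, rfl⟩
      obtain ⟨δ', hδ', h⟩ := exists_gamma_conj hℓ dvd_rfl B.adjugate hdet' hδ
      refine ⟨moebiusZ δ', ⟨δ', hδ', rfl⟩, ?_⟩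
      have hgl : A' * mapGL ℝ δ = mapGL ℝ δ' * A' := mapGL_mul_of_mat hA' h
      have hc : A * mapGL ℝ δ' = mapGL ℝ δ * A := by
        refine Units.ext ?_
        have hAA' : (A : Matrix (Fin 2) (Fin 2) ℝ) * (A' : Matrix (Fin 2) (Fin 2) ℝ) = (ℓ : ℝ) • 1 := by
          rw [hA, hA', ← Matrix.map_mul, Matrix.mul_adjugate, hdet]
          ext i j
          fin_cases i <;> fin_cases j <;> simp [← Matrix.diagonal_natCast]
        have e := congrArg (fun u : GL (Fin 2) ℝ =>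
          (A : Matrix (Fin 2) (Fin 2) ℝ) * (u : Matrix (Fin 2) (Fin 2) ℝ) * A) hgl
        simp only [Units.val_mul, ← Matrix.mul_assoc, hAA'] at e ⊢
        rw [Matrix.mul_assoc ((A : Matrix (Fin 2) (Fin 2) ℝ) * _) (A' : Matrix (Fin 2) (Fin 2) ℝ)] at e
        have hA'A : (A' : Matrix (Fin 2) (Fin 2) ℝ) * A = (ℓ : ℝ) • 1 := by
          rw [← Units.val_mul, hmul, Units.val_one]
        rw [hA'A] at e
        simp only [Matrix.smul_mul, Matrix.mul_smul, Matrix.one_mul, Matrix.mul_one] at e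
        exact (smul_right_injective _ (Nat.cast_ne_zero.2 hℓ) e).symm
      show moebius A * moebius (mapGL ℝ δ') * (moebius A)⁻¹ = moebius (mapGL ℝ δ)
      rw [mul_inv_eq_iff_eq_mul, ← map_mul, ← map_mul, hc]
    exact fun h0 => relIndex_imageSub (Gamma (N * ℓ * ℓ))
      (Subgroup.relIndex_eq_zero_of_le_left hle h0)
  rw [hpt] at hinvL ⊢
  exact meanOn_comp (relIndex_imageSub _) goodDomain_auxDomain goodDomain_auxDomain A hmem hfin
    ((bdd2_cuspForm f).isBC (bdd2_slash g A')) hinvL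
    (petersson_invariant (slash_invariant_self (dvd_mul_right N ℓ) f)
      (slash_invariant_of_mat dvd_rfl hA' hdet' g))

/-- The mean of `pet(f, g|A)` only depends on `A` up to `Γ₀(N)` on both sides. -/
lemma mean_doubleCoset [NeZero (N * ℓ)] (f g : CuspForm (Gamma0 N) 2) {A₀ A : GL (Fin 2) ℝ}
    {B₀ : Matrix (Fin 2) (Fin 2) ℤ} (hA₀ : (A₀ : Matrix (Fin 2) (Fin 2) ℝ) = realMat B₀)
    (hdet : B₀.det = ℓ) {γ δ : SL(2, ℤ)} (hγ : γ ∈ Gamma0 N) (hδ : δ ∈ Gamma0 N)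
    (hA : A = mapGL ℝ γ * A₀ * mapGL ℝ δ) :
    meanOn (auxDomain N ℓ) (petersson 2 f (⇑g ∣[(2 : ℤ)] A)) =
      meanOn (auxDomain N ℓ) (petersson 2 f (⇑g ∣[(2 : ℤ)] A₀)) := by
  set H := petersson 2 f (⇑g ∣[(2 : ℤ)] A₀)
  have hpt : petersson 2 f (⇑g ∣[(2 : ℤ)] A) = fun x => H (mapGL ℝ δ • x) := by
    funext x
    have hg : ⇑g ∣[(2 : ℤ)] mapGL ℝ γ = ⇑g := slash_gamma0_eq g hγ
    have hf : ⇑f ∣[(2 : ℤ)] δ = ⇑f := slash_gamma0_eq f hδ
    conv_lhs => rw [hA, SlashAction.slash_mul, SlashAction.slash_mul, hg, ← hf]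
    exact petersson_slash_SL 2 _ _ δ x
  have hinv := petersson_invariant (S := Gamma (N * ℓ))
    (slash_invariant_self (dvd_mul_right N ℓ) f) (slash_invariant_of_mat dvd_rfl hA₀ hdet g)
  have := Gamma_normal (N * ℓ)
  have hmem : ∀ h ∈ (imageSub (Gamma (N * ℓ))).1,
      moebius (mapGL ℝ δ) * h * (moebius (mapGL ℝ δ))⁻¹ ∈ modTrans := by
    rintro _ ⟨ε, -, rfl⟩
    exact ⟨δ * ε * δ⁻¹, by rw [map_mul, map_mul, map_inv]; rfl⟩
  have heq : (conjSub (imageSub (Gamma (N * ℓ))) (mapGL ℝ δ) hmem).1 =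
      (imageSub (Gamma (N * ℓ))).1 := by
    apply le_antisymm
    · rintro _ ⟨_, ⟨ε, hε, rfl⟩, rfl⟩
      exact ⟨δ * ε * δ⁻¹, this.conj_mem ε hε δ, by rw [map_mul, map_mul, map_inv]; rfl⟩
    · rintro _ ⟨ε, hε, rfl⟩
      refine ⟨moebiusZ (δ⁻¹ * ε * δ), ⟨_, by simpa using this.conj_mem ε hε δ⁻¹, rfl⟩, ?_⟩
      show moebiusZ δ * moebiusZ (δ⁻¹ * ε * δ) * (moebiusZ δ)⁻¹ = moebiusZ ε
      rw [map_mul, map_mul, map_inv]
      group
  rw [hpt]
  refine meanOn_comp (relIndex_imageSub _) goodDomain_auxDomain goodDomain_auxDomain (mapGL ℝ δ)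
    hmem (by rw [heq]; exact relIndex_imageSub _)
    ((bdd2_cuspForm f).isBC (bdd2_slash g A₀)) ?_ hinv
  rintro _ ⟨ε, hε, rfl⟩ x
  show H (δ • ε • x) = H (δ • x)
  rw [show δ • ε • x = (δ * ε * δ⁻¹) • δ • x by rw [← mul_smul, ← mul_smul]; group]
  exact hinv _ ⟨_, this.conj_mem ε hε δ, rfl⟩ _

omit [NeZero N] in
/-- Every representative and every adjugate of one lies in the double coset of the `0`-th one. -/
lemma exists_doubleCoset (hℓN : ¬ ℓ ∣ N) (x : OnePoint (ZMod ℓ)) :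
    ∃ B : Matrix (Fin 2) (Fin 2) ℤ, ∃ A' : GL (Fin 2) ℝ,
      (heckeRep ℓ x : Matrix (Fin 2) (Fin 2) ℝ) = realMat B ∧ B.det = ℓ ∧
      (A' : Matrix (Fin 2) (Fin 2) ℝ) = realMat B.adjugate ∧
      (∃ γ ∈ Gamma0 N, ∃ δ ∈ Gamma0 N,
        heckeRep ℓ x = mapGL ℝ γ * heckeRep ℓ ((0 : ZMod ℓ) : OnePoint (ZMod ℓ)) * mapGL ℝ δ) ∧
      ∃ γ ∈ Gamma0 N, ∃ δ ∈ Gamma0 N,
        A' = mapGL ℝ γ * heckeRep ℓ ((0 : ZMod ℓ) : OnePoint (ZMod ℓ)) * mapGL ℝ δ := by
  have hℓ : ℓ.Prime := Fact.out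
  obtain ⟨a, b, hab⟩ := Nat.isCoprime_iff_coprime.2 (hℓ.coprime_iff_not_dvd.2 hℓN)
  let γ₁ : SL(2, ℤ) := ⟨!![a, -b; (N : ℤ), (ℓ : ℤ)], by
    rw [Matrix.det_fin_two_of]; linear_combination hab⟩
  let δ₁ : SL(2, ℤ) := ⟨!![(ℓ : ℤ) * a, -b; (N : ℤ), 1], by
    rw [Matrix.det_fin_two_of]; linear_combination hab⟩
  have hγ₁ : γ₁ ∈ Gamma0 N := mem_gamma0_iff_dvd.2 dvd_rfl
  have hδ₁ : δ₁ ∈ Gamma0 N := mem_gamma0_iff_dvd.2 dvd_rfl
  have hT : ∀ j : ℤ, ModularGroup.T ^ j ∈ Gamma0 N := fun j =>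
    mem_gamma0_iff_dvd.2 (by simp [ModularGroup.coe_T_zpow])
  have h0 : ((heckeRep ℓ ((0 : ZMod ℓ) : OnePoint (ZMod ℓ)) : GL (Fin 2) ℝ) :
      Matrix (Fin 2) (Fin 2) ℝ) = !![1, 0; 0, (ℓ : ℝ)] := by
    rw [heckeRep_coe, ModularForm.val_heckeMatrix hℓ.ne_zero]; simp
  -- `R₀ δ₁ = γ₁ R_∞`
  have hinf : heckeRep ℓ ((0 : ZMod ℓ) : OnePoint (ZMod ℓ)) * mapGL ℝ δ₁ =
      mapGL ℝ γ₁ * ModularForm.heckeDiagMatrix ℓ := by
    refine Units.ext ?_
    rw [Units.val_mul, Units.val_mul, h0, mapGL_eq_realMat, mapGL_eq_realMat,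
      ModularForm.val_heckeDiagMatrix hℓ.ne_zero]
    ext i j
    fin_cases i <;> fin_cases j <;>
      simp [γ₁, δ₁, realMat, Matrix.mul_apply, Fin.sum_univ_two, mul_comm]
  have hinf' : ModularForm.heckeDiagMatrix ℓ =
      mapGL ℝ γ₁⁻¹ * heckeRep ℓ ((0 : ZMod ℓ) : OnePoint (ZMod ℓ)) * mapGL ℝ δ₁ := by
    rw [mul_assoc, hinf, map_inv, inv_mul_cancel_left]
  induction x using OnePoint.rec with
  | infty =>
    refine ⟨!![(ℓ : ℤ), 0; 0, 1], heckeRep ℓ ((0 : ZMod ℓ) : OnePoint (ZMod ℓ)), ?_, ?_, ?_,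
      ⟨_, inv_mem hγ₁, _, hδ₁, by rw [heckeRep_infty]; exact hinf'⟩,
      ⟨1, one_mem _, 1, one_mem _, by simp⟩⟩
    · rw [heckeRep_infty, ModularForm.val_heckeDiagMatrix hℓ.ne_zero]
      ext i j; fin_cases i <;> fin_cases j <;> simp [realMat]
    · simp [Matrix.det_fin_two_of]
    · rw [h0, Matrix.adjugate_fin_two_of]
      ext i j; fin_cases i <;> fin_cases j <;> simp [realMat]
  | coe j =>
    refine ⟨!![1, (j.val : ℤ); 0, (ℓ : ℤ)],
      mapGL ℝ (ModularGroup.T ^ (-(j.val : ℤ))) * ModularForm.heckeDiagMatrix ℓ, ?_, ?_, ?_,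
      ⟨1, one_mem _, ModularGroup.T ^ (j.val : ℤ), hT _, ?_⟩,
      ⟨ModularGroup.T ^ (-(j.val : ℤ)) * γ₁⁻¹, mul_mem (hT _) (inv_mem hγ₁), δ₁, hδ₁, ?_⟩⟩
    · rw [heckeRep_coe, ModularForm.val_heckeMatrix hℓ.ne_zero]
      ext i k; fin_cases i <;> fin_cases k <;> simp [realMat, -ZMod.natCast_val]
    · simp [Matrix.det_fin_two_of]
    · rw [Units.val_mul, mapGL_eq_realMat, ModularForm.val_heckeDiagMatrix hℓ.ne_zero,
        Matrix.adjugate_fin_two_of]
      ext i k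
      fin_cases i <;> fin_cases k <;>
        simp [realMat, ModularGroup.coe_T_zpow, Matrix.mul_apply, Fin.sum_univ_two,
          -ZMod.natCast_val, -zpow_natCast, -zpow_neg]
    · rw [map_one, one_mul]
      refine Units.ext ?_
      rw [Units.val_mul, h0, mapGL_eq_realMat, heckeRep_coe,
        ModularForm.val_heckeMatrix hℓ.ne_zero]
      ext i k
      fin_cases i <;> fin_cases k <;>
        simp [realMat, ModularGroup.coe_T_zpow, Matrix.mul_apply, Fin.sum_univ_two,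
          -ZMod.natCast_val, -zpow_natCast, -zpow_neg]
    · rw [map_mul, mul_assoc (mapGL ℝ _) (mapGL ℝ γ₁⁻¹), mul_assoc, ← hinf']

omit [Fact (Nat.Prime ℓ)] in
lemma peterssonInner_eq_mean [NeZero (N * ℓ)] (f g : CuspForm (Gamma0 N) 2) :
    peterssonInner f g = meanOn (auxDomain N ℓ) (petersson 2 f g) :=
  (meanOn_eq (relIndex_imageSub _) (relIndex_imageSub _) goodDomain_gamma0Domain
    goodDomain_auxDomain ((bdd2_cuspForm f).isBC (bdd2_cuspForm g))
    (petersson_invariant (fun _ h => slash_gamma0_eq f h) fun _ h => slash_gamma0_eq g h)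
    (petersson_invariant (slash_invariant_self (dvd_mul_right N ℓ) f)
      (slash_invariant_self (dvd_mul_right N ℓ) g))).symm

lemma meanOn_sum {ι : Type*} (s : Finset ι) {F : Set ℍ} (hF : volume F < ⊤) {G : ι → ℍ → ℂ}
    (hG : ∀ i ∈ s, IsBC (G i)) :
    meanOn F (fun x => ∑ i ∈ s, G i x) = ∑ i ∈ s, meanOn F (G i) := by
  simp only [meanOn, ← Finset.mul_sum]
  rw [integral_finsetSum _ fun i hi => (hG i hi).integrableOn hF]

/-- **`T_ℓ` is self-adjoint.** -/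
theorem peterssonInner_heckeT (hℓ : ℓ.Prime) (hℓN : ¬ ℓ ∣ N) (f g : CuspForm (Gamma0 N) 2) :
    peterssonInner (CuspForm.heckeTLin 2 hℓ hℓN f) g =
      peterssonInner f (CuspForm.heckeTLin 2 hℓ hℓN g) := by
  have : NeZero (N * ℓ) := ⟨mul_ne_zero (NeZero.ne N) hℓ.ne_zero⟩
  choose B A' hB hdet hA' hx hxa using exists_doubleCoset (ℓ := ℓ) hℓN
  obtain ⟨B₀, -, hdet₀, hB₀⟩ := exists_heckeRep_eq (ℓ := ℓ) ((0 : ZMod ℓ) : OnePoint (ZMod ℓ))
  rw [peterssonInner_eq_mean (ℓ := ℓ), peterssonInner_eq_mean (ℓ := ℓ)]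
  have hl : petersson 2 ⇑(CuspForm.heckeTLin 2 hℓ hℓN f) ⇑g =
      fun τ => ∑ x, petersson 2 (⇑f ∣[(2 : ℤ)] heckeRep ℓ x) g τ := by
    funext τ
    rw [CuspForm.coe_heckeTLin_apply, heckeT_eq_sum_onePoint]
    simp [petersson, Finset.sum_apply, map_sum, Finset.sum_mul]
  have hr : petersson 2 ⇑f ⇑(CuspForm.heckeTLin 2 hℓ hℓN g) =
      fun τ => ∑ x, petersson 2 f (⇑g ∣[(2 : ℤ)] heckeRep ℓ x) τ := by
    funext τ
    rw [CuspForm.coe_heckeTLin_apply, heckeT_eq_sum_onePoint]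
    simp [petersson, Finset.sum_apply, Finset.mul_sum, Finset.sum_mul]
  rw [hl, hr, meanOn_sum _ goodDomain_auxDomain.lt_top
      (fun x _ => (bdd2_slash f _).isBC (bdd2_cuspForm g)),
    meanOn_sum _ goodDomain_auxDomain.lt_top
      (fun x _ => (bdd2_cuspForm f).isBC (bdd2_slash g _))]
  refine Finset.sum_congr rfl fun x _ => ?_
  obtain ⟨γ, hγ, δ, hδ, hxe⟩ := hx x
  obtain ⟨γ', hγ', δ', hδ', hxe'⟩ := hxa x
  rw [mean_adjoint f g (hB x) (hdet x) (hA' x), mean_doubleCoset f g hB₀ hdet₀ hγ' hδ' hxe',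
    mean_doubleCoset f g hB₀ hdet₀ hγ hδ hxe]

end adjoint

/-! ### Positivity and linearity -/

lemma isOpen_null_eq_empty {U : Set ℍ} (hU : IsOpen U) (h0 : volume U = 0) : U = ∅ := by
  by_contra hne
  have hopen : IsOpen (UpperHalfPlane.coe '' U) :=
    UpperHalfPlane.isOpenEmbedding_coe.isOpenMap _ hU
  have hpos : 0 < volume U := by
    rw [volume_eq_lintegral, setLIntegral_pos_iff]
    · refine (hopen.measure_pos volume ((Set.nonempty_iff_ne_empty.2 hne).image _)).trans_le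
        (measure_mono fun z hz => ⟨?_, hz⟩)
      obtain ⟨τ, -, rfl⟩ := hz
      simp [Function.mem_support, τ.im_ne_zero]
    · fun_prop
  exact hpos.ne' h0

lemma petersson_self_eq (u : ℍ → ℂ) (x : ℍ) :
    petersson 2 u u x = ((Complex.normSq (u x) * x.im ^ (2 : ℤ) : ℝ) : ℂ) := by
  rw [petersson, Complex.normSq_eq_conj_mul_self.symm]
  push_cast
  ring

theorem peterssonInner_self_eq_zero {f : CuspForm (Gamma0 N) 2} (h : peterssonInner f f = 0) :
    f = 0 := by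
  have hd := goodDomain_gamma0Domain (N := N)
  rw [peterssonInner, meanOn, mul_eq_zero, inv_eq_zero, Complex.ofReal_eq_zero,
    ENNReal.toReal_eq_zero_iff] at h
  have hint : ∫ x in gamma0Domain N, petersson 2 f f x = 0 :=
    h.resolve_left (by rintro (h | h); exacts [hd.pos.ne' h, hd.lt_top.ne h])
  set φ : ℍ → ℝ := fun x => Complex.normSq (f x) * x.im ^ (2 : ℤ)
  have hφ : ∀ x, petersson 2 f f x = (φ x : ℂ) := petersson_self_eq _
  simp only [hφ, integral_complex_ofReal, Complex.ofReal_eq_zero] at hint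
  have hnn : ∀ x, 0 ≤ φ x := fun x => mul_nonneg (Complex.normSq_nonneg _) (by positivity)
  obtain ⟨hcont, C, hC⟩ := (bdd2_cuspForm f).isBC (bdd2_cuspForm f)
  have hφc : Continuous φ := by
    have h2 : φ = fun x => (petersson 2 f f x).re := by funext x; rw [hφ]; simp
    rw [h2]; exact Complex.continuous_re.comp hcont
  have hi : IntegrableOn φ (gamma0Domain N) :=
    IntegrableOn.of_bound hd.lt_top hφc.aestronglyMeasurable C
      (Filter.Eventually.of_forall fun x => by simpa [hφ] using hC x)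
  have hae := (setIntegral_eq_zero_iff_of_nonneg_ae (Filter.Eventually.of_forall hnn) hi).1 hint
  set U : Set ℍ := {x | φ x ≠ 0}
  have hUinter : volume (U ∩ gamma0Domain N) = 0 := by
    rw [← Measure.restrict_apply' hd.meas]
    exact hae
  have hUinv : ∀ g : (imageSub (Gamma0 N)).1, g • U = U := by
    intro g
    ext x
    rw [Set.mem_smul_set_iff_inv_smul_mem]
    have hx := petersson_invariant (S := Gamma0 N) (fun _ h => slash_gamma0_eq f h)
      (fun _ h => slash_gamma0_eq f h) _ (g⁻¹).2 x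
    simp only [hφ, Complex.ofReal_inj] at hx
    show φ ((g⁻¹ : (imageSub (Gamma0 N)).1).1 x) ≠ 0 ↔ φ x ≠ 0
    rw [hx]
  have hU0 : volume U = 0 := hd.isFD.measure_zero_of_invariant U hUinv hUinter
  have hUe : U = ∅ := isOpen_null_eq_empty (isOpen_ne_fun hφc continuous_const) hU0
  ext x
  by_contra hx
  have : x ∈ U := by
    simp only [U, φ, Set.mem_ofPred_eq, ne_eq, mul_eq_zero, Complex.normSq_eq_zero, not_or]
    exact ⟨hx, zpow_ne_zero _ x.im_ne_zero⟩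
  rw [hUe] at this
  exact this

lemma peterssonInner_add_right (f g g' : CuspForm (Gamma0 N) 2) :
    peterssonInner f (g + g') = peterssonInner f g + peterssonInner f g' := by
  have hd := goodDomain_gamma0Domain (N := N)
  have : petersson 2 ⇑f ⇑(g + g') = fun x => petersson 2 f g x + petersson 2 f g' x := by
    funext x; simp [petersson]; ring
  rw [peterssonInner, this, meanOn, integral_add (((bdd2_cuspForm f).isBC
    (bdd2_cuspForm g)).integrableOn hd.lt_top) (((bdd2_cuspForm f).isBC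
    (bdd2_cuspForm g')).integrableOn hd.lt_top), mul_add]
  rfl

lemma peterssonInner_smul_right (c : ℂ) (f g : CuspForm (Gamma0 N) 2) :
    peterssonInner f (c • g) = c * peterssonInner f g := by
  have : petersson 2 ⇑f ⇑(c • g) = fun x => c * petersson 2 f g x := by
    funext x; simp [petersson]; ring
  rw [peterssonInner, this, meanOn, integral_const_mul, mul_left_comm]
  rfl

lemma peterssonInner_conj (f g : CuspForm (Gamma0 N) 2) :
    conj (peterssonInner f g) = peterssonInner g f := by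
  rw [peterssonInner, peterssonInner, meanOn, meanOn, map_mul, map_inv₀, Complex.conj_ofReal,
    ← integral_conj]
  simp only [← petersson_symm]

lemma peterssonInner_smul_left (c : ℂ) (f g : CuspForm (Gamma0 N) 2) :
    peterssonInner (c • f) g = conj c * peterssonInner f g := by
  rw [← peterssonInner_conj, peterssonInner_smul_right, map_mul, peterssonInner_conj]

lemma peterssonInner_add_left (f f' g : CuspForm (Gamma0 N) 2) :
    peterssonInner (f + f') g = peterssonInner f g + peterssonInner f' g := by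
  rw [← peterssonInner_conj, peterssonInner_add_right, map_add, peterssonInner_conj,
    peterssonInner_conj]

end Fermat.Agent.Newforms
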